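import Fermat.Agent.S41.Spec.PD
import Fermat.Agent.S41.H761.TRH

/-!
# S41 / PD, leaf FREE (helper585)

* `pdHeckeOfPD : Spec.PDHeckeOfPDStatement`  (Hecke operators are self-adjoint for a PD family);
* `pdHecke_of_pd : Spec.PDStatement → Spec.PDHeckeStatement`;
* `cuspFree : Spec.CuspFreeStatement`  (`C_n(ℤ)` is a finite free `ℤ`-module);
* `mem_gamma0Delta_iff`, `gamma0Delta_finiteIndex`, `neg_one_mem_gamma0Delta`
  (`Γ' = δ Γ₀(N q) δ⁻¹ = Γ₀(N) ∩ Γ⁰(q)` has finite index and contains `-1`).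
-/

set_option autoImplicit false

namespace Fermat.Agent.S41.H585

open CongruenceSubgroup Matrix.SpecialLinearGroup ModularCurve.Period ModularGroup
open Fermat.Agent.S29.H642 Fermat.Agent.S41.Spec
open scoped MatrixGroups

universe u

/-! ## Hecke operators are self-adjoint -/

/-- (PD-HECKE) `B(T_l x, y) = B(x, T_l y)` for a Poincaré-duality family. -/
theorem pdHeckeOfPD : PDHeckeOfPDStatement.{u} := by
  intro hRC hTRH F _ B hB n l _ hl hn x y hx hy
  obtain ⟨-, -, hskew, -, hadj⟩ := hB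
  have hlp : l.Prime := Fact.out
  have hnl : n * l ≠ 0 := Nat.mul_ne_zero hn hlp.ne_zero
  have hTx : IsCuspidal (heckeTransfer hl x) := H761.heckeCusp.{u} n l hl F x hx
  obtain ⟨h1x, h2x⟩ := hRC n l F x hx
  obtain ⟨h1y, h2y⟩ := hRC n l F y hy
  obtain ⟨e1x, -⟩ := hTRH n l hl hn F x
  obtain ⟨-, e2y⟩ := hTRH n l hl hn F y
  have a1 := (hadj n l hn hlp hl y (r₂ n l x) hy h2x).1
  have a2 := (hadj n l hn hlp hl x (r₁ n l y) hx h1y).2
  calc B n (heckeTransfer hl x) y = - B n y (heckeTransfer hl x) := hskew n hn y _ hy hTx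
    _ = - B n y (t₁ n l (r₂ n l x)) := by rw [e1x]
    _ = - B (n * l) (r₁ n l y) (r₂ n l x) := by rw [a1]
    _ = B (n * l) (r₂ n l x) (r₁ n l y) := by
        rw [hskew (n * l) hnl (r₂ n l x) (r₁ n l y) h2x h1y, neg_neg]
    _ = B n x (t₂ n l (r₁ n l y)) := a2
    _ = B n x (heckeTransfer hl y) := by rw [e2y]

/-- `PD ⇒ PD with Hecke operators`. -/
theorem pdHecke_of_pd (hRC : RestrictCuspStatement.{u})
    (hTRH : TransferRestrictHeckeStatement.{u}) (hPD : PDStatement.{u}) :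
    PDHeckeStatement.{u} := by
  intro F _
  obtain ⟨B, hB⟩ := hPD F
  exact ⟨B, hB, pdHeckeOfPD hRC hTRH F B hB⟩

/-! ## `C_n(ℤ)` is finite free -/

/-- evaluation of homomorphisms on a set -/
def evalOn (H : Type*) [Group H] (s : Finset H) : (Additive H →+ ℤ) →ₗ[ℤ] (s → ℤ) where
  toFun φ x := φ (Additive.ofMul (x : H))
  map_add' _ _ := rfl
  map_smul' _ _ := rfl

lemma evalOn_injective (H : Type*) [Group H] (s : Finset H)
    (hs : Subgroup.closure (s : Set H) = ⊤) :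
    Function.Injective (evalOn H s) := by
  rw [← LinearMap.ker_eq_bot, LinearMap.ker_eq_bot']
  intro φ hφ
  have h0 : ∀ x ∈ s, φ (Additive.ofMul x) = 0 := fun x hx => congrFun hφ ⟨x, hx⟩
  have key : ∀ h : H, φ (Additive.ofMul h) = 0 := by
    intro h
    have hg : h ∈ Subgroup.closure (s : Set H) := by rw [hs]; trivial
    induction hg using Subgroup.closure_induction with
    | mem x hx => exact h0 x hx
    | one => exact map_zero φ
    | mul x y _ _ hx hy => rw [ofMul_mul, map_add, hx, hy, add_zero]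
    | inv x _ hx => rw [ofMul_inv, map_neg, hx, neg_zero]
  exact AddMonoidHom.ext fun g => key (Additive.toMul g)

/-- Submodules of `Hom(H, ℤ)` are finite free for finitely generated `H`. -/
theorem finite_free_of_fg (H : Type*) [Group H] [Group.FG H]
    (M : Submodule ℤ (Additive H →+ ℤ)) : Module.Finite ℤ M ∧ Module.Free ℤ M := by
  obtain ⟨s, hs⟩ := Group.fg_def.mp (inferInstance : Group.FG H)
  let L : M →ₗ[ℤ] (s → ℤ) := (evalOn H s).comp M.subtype
  have hL : Function.Injective L := (evalOn_injective H s hs).comp Subtype.val_injective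
  have hfin : Module.Finite ℤ M := Module.Finite.of_injective L hL
  have htf : Module.IsTorsionFree ℤ M :=
    Function.Injective.moduleIsTorsionFree L hL (fun n x => map_smul L n x)
  exact ⟨hfin, inferInstance⟩

/-- **(LIFT b)** `C_n(ℤ)` is a finite free `ℤ`-module. -/
theorem cuspFree : CuspFreeStatement := by
  intro n hn
  have : NeZero n := ⟨hn⟩
  have : Group.FG SL(2, ℤ) :=
    Group.fg_iff.mpr ⟨{S, T}, _root_.SpecialLinearGroup.SL2Z_generators, Set.toFinite _⟩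
  have : Group.FG (Gamma0 n) := Subgroup.fg_of_index_ne_zero (Gamma0 n)
  exact finite_free_of_fg (Gamma0 n) (cuspidalSubmodule ℤ n ℤ)

/-! ## `Γ' = Γ₀(N) ∩ Γ⁰(q)` -/

lemma conjDeltaSL_apply (N q : ℕ) (γ : Gamma0 (N * q)) :
    ((conjDeltaSL N q γ : SL(2, ℤ)) : Matrix (Fin 2) (Fin 2) ℤ) =
      conjDeltaMatrix q (γ : SL(2, ℤ)) := rfl

/-- `Γ'` consists of the elements of `Γ₀(N)` with upper right entry divisible by `q`. -/
theorem mem_gamma0Delta_iff {N q : ℕ} (hq : q ≠ 0) (g : SL(2, ℤ)) :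
    g ∈ gamma0Delta N q ↔ g ∈ Gamma0 N ∧ (q : ℤ) ∣ g 0 1 := by
  have hq' : (q : ℤ) ≠ 0 := by exact_mod_cast hq
  constructor
  · rintro ⟨γ, rfl⟩
    refine ⟨(conjDelta N q γ).2, ?_⟩
    show (q : ℤ) ∣ (conjDeltaMatrix q (γ : SL(2, ℤ))) 0 1
    simp [conjDeltaMatrix]
  · rintro ⟨hg, k, hk⟩
    have hN : (N : ℤ) ∣ g 1 0 :=
      (ZMod.intCast_zmod_eq_zero_iff_dvd _ _).mp (Gamma0_mem.mp hg)
    have hdet := g.det_coe
    rw [Matrix.det_fin_two] at hdet
    -- `γ = [[a, b / q], [q c, d]]`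
    let γ : SL(2, ℤ) := ⟨!![g 0 0, k; q * g 1 0, g 1 1], by
      rw [Matrix.det_fin_two_of]; rw [hk] at hdet; linear_combination hdet⟩
    have hγ : γ ∈ Gamma0 (N * q) := by
      rw [Gamma0_mem, ZMod.intCast_zmod_eq_zero_iff_dvd]
      show ((N * q : ℕ) : ℤ) ∣ (q : ℤ) * g 1 0
      obtain ⟨j, hj⟩ := hN
      exact ⟨j, by rw [hj]; push_cast; ring⟩
    refine ⟨⟨γ, hγ⟩, ?_⟩
    apply Subtype.ext
    rw [conjDeltaSL_apply]
    show conjDeltaMatrix q γ = (g : Matrix (Fin 2) (Fin 2) ℤ)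
    ext i j
    fin_cases i <;> fin_cases j
    · rfl
    · show (q : ℤ) * k = g 0 1
      rw [hk]
    · show (q : ℤ) * g 1 0 / q = g 1 0
      exact Int.mul_ediv_cancel_left _ hq'
    · rfl

theorem neg_one_mem_gamma0Delta (N q : ℕ) : (-1 : SL(2, ℤ)) ∈ gamma0Delta N q := by
  rcases eq_or_ne q 0 with rfl | hq
  · -- `q = 0`
    have h : (-1 : SL(2, ℤ)) ∈ Gamma0 (N * 0) := by
      rw [Gamma0_mem]; simp
    refine ⟨⟨-1, h⟩, ?_⟩
    apply Subtype.ext
    rw [conjDeltaSL_apply]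
    ext i j
    fin_cases i <;> fin_cases j <;> simp [conjDeltaMatrix]
  · rw [mem_gamma0Delta_iff hq]
    refine ⟨?_, ?_⟩
    · rw [Gamma0_mem]; simp
    · simp

theorem gamma_le_gamma0Delta {N q : ℕ} (hq : q ≠ 0) : Gamma (N * q) ≤ gamma0Delta N q := by
  intro g hg
  rw [Gamma_mem] at hg
  obtain ⟨-, h01, h10, -⟩ := hg
  rw [mem_gamma0Delta_iff hq]
  have d01 : ((N * q : ℕ) : ℤ) ∣ g 0 1 := (ZMod.intCast_zmod_eq_zero_iff_dvd _ _).mp h01
  have d10 : ((N * q : ℕ) : ℤ) ∣ g 1 0 := (ZMod.intCast_zmod_eq_zero_iff_dvd _ _).mp h10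
  refine ⟨?_, ?_⟩
  · rw [Gamma0_mem, ZMod.intCast_zmod_eq_zero_iff_dvd]
    exact dvd_trans ⟨(q : ℤ), by push_cast; ring⟩ d10
  · exact dvd_trans ⟨(N : ℤ), by push_cast; ring⟩ d01

theorem gamma0Delta_finiteIndex {N q : ℕ} (hN : N ≠ 0) (hq : q ≠ 0) :
    (gamma0Delta N q).FiniteIndex := by
  have : NeZero (N * q) := ⟨Nat.mul_ne_zero hN hq⟩
  exact Subgroup.finiteIndex_of_le (gamma_le_gamma0Delta hq)

end Fermat.Agent.S41.H585
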