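import Fermat.Agent.S41.H585.PDDictB
import Fermat.Agent.S41.H460.DictA
import Fermat.Agent.S41.H281.PDLinAlg
import Fermat.Agent.S41.H768.Tors

/-!
# S41 / block LIFT (helper585): cuspidal classes mod `p` lift to `ℤ`

* `maninRepTorsionU : Spec.ManinRepTorsionStatement`  (D3', unconditional: TORS is on main);
* `lift_of` : LIFT from the leaves D1, D2', D2'', D3, D3', D4, LA-4 (all as hypotheses);
* `lift : Spec.LiftStatement`  (unconditional).
-/

set_option autoImplicit false

namespace Fermat.Agent.S41.H585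

open CongruenceSubgroup Matrix.SpecialLinearGroup ModularCurve.Period ModularGroup
open Fermat.Agent.S41.Spec
open scoped MatrixGroups

universe u

/-- (D3') unconditional. -/
theorem maninRepTorsionU : ManinRepTorsionStatement.{u} :=
  maninRepTorsion H768.torsionClass

lemma neg_one_mem_Gamma0 (n : ℕ) : (-1 : SL(2, ℤ)) ∈ Gamma0 n := by
  rw [Gamma0_mem]; simp

/-- LIFT from the leaves. -/
theorem lift_of (d1 : ManinRepExistsStatement.{0}) (d2' : ManinRepInvariantStatement.{0})
    (d2'' : ManinRepLinearStatement.{0}) (d3 : ManinRepRealizeStatement.{0})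
    (d3' : ManinRepTorsionStatement.{0}) (d4 : ManinRepParabolicStatement.{0})
    (la4 : ParDataLiftStatement) : LiftStatement := by
  intro n p hn xbar hxbar
  have : NeZero n := ⟨hn⟩
  have hneg := neg_one_mem_Gamma0 n
  -- Manin representative and parabolic data mod `p`
  obtain ⟨mbar, hmbar⟩ := d1 (Gamma0 n) hneg (ZMod p) xbar hxbar.2
  obtain ⟨ebar, hebar⟩ := (d4 (Gamma0 n) hneg (ZMod p) xbar mbar hmbar).mp hxbar.1
  -- lift to `ℤ`
  obtain ⟨m, e, hme, hm, -⟩ := la4 (Gamma0 n) p mbar ebar hebar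
  obtain ⟨x, hx⟩ := d3 (Gamma0 n) hneg ℤ m
  have hxc : IsCuspidal x :=
    ⟨(d4 (Gamma0 n) hneg ℤ x m hx).mpr ⟨e, hme⟩, d3' (Gamma0 n) hneg ℤ x m hx⟩
  refine ⟨x, hxc, ?_⟩
  -- the reduction of `x` is represented by `mbar`
  have hred : IsManinRep (Gamma0 n) ((Int.castAddHom (ZMod p)).comp x)
      (fun y => (Int.castAddHom (ZMod p)) (m y)) :=
    (d2'' (Gamma0 n) ℤ (ZMod p) (Int.castAddHom (ZMod p)) x x m m hx hx).2.2
  have hmb : (fun y => (Int.castAddHom (ZMod p)) (m y)) = mbar := by
    funext y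
    exact hm y
  rw [hmb] at hred
  -- the difference is represented by `0`
  have hdiff := (d2'' (Gamma0 n) (ZMod p) (ZMod p) (AddMonoidHom.id _)
    ((Int.castAddHom (ZMod p)).comp x) xbar mbar mbar hred hmbar).2.1
  rw [sub_self] at hdiff
  have hzero : IsInvariantSum (Gamma0 n) (0 : SL(2, ℤ) ⧸ Gamma0 n → ZMod p) :=
    ⟨0, 0, fun _ => rfl, fun _ => rfl, by simp⟩
  have := d2' (Gamma0 n) hneg (ZMod p) _ 0 hdiff hzero
  exact sub_eq_zero.mp this

/-- **Block LIFT (a)**, unconditional. -/
theorem lift : LiftStatement :=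
  lift_of H460.maninRepExists H460.maninRepInvariant H460.maninRepLinear maninRepRealize
    maninRepTorsionU maninRepParabolic H281.parDataLift

end Fermat.Agent.S41.H585
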