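import Fermat.Agent.S41.H221.PDAsm2
import Fermat.Agent.S41.H281.PDLinAlg
import Fermat.Agent.S41.H460.DictA
import Fermat.Agent.S41.H585.PDLift
import Fermat.Agent.S41.H585.PDFree
import Fermat.Agent.S41.H232.PDTransfer
import Fermat.Agent.S41.H945.Heis
import Fermat.Agent.S41.H874.PDCuspSumMain
import Fermat.Agent.S41.H769.CuspOrbit
import Fermat.Agent.S41.H769.CuspIndep
import Fermat.Agent.S41.H281.HK

/-!
# S41, block PD — unconditional assembly (helper585)

All leaves of `Spec/PD.lean` are on main; this file plugs them into helper221's assembly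
`H221.pd_of_leaves`:

* `pd       : Spec.PDStatement`
* `pdHecke  : Spec.PDHeckeStatement`
* (`lift : Spec.LiftStatement`, `cuspFree : Spec.CuspFreeStatement` are in `PDLift`, `PDFree`).
-/

set_option autoImplicit false

namespace Fermat.Agent.S41.H585

open Fermat.Agent.S41.Spec

universe u

/-- **Block PD**, unconditional. -/
theorem pd : PDStatement.{u} :=
  H221.pd_of_leaves H281.maninPerp H281.maninSkew H281.maninParDataOf
    H460.maninRepExists H460.maninRepZero H460.maninRepInvariant H460.maninRepLinear
    maninRepRealize maninRepTorsionU maninRepParabolic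
    H232.maninRepRes H232.maninRepCores H232.maninFormAdjoint H232.transferAlongEquiv
    H945.heisLift H874.cuspSumZero_h874
    H769.tOrbitSystemExists H769.tOrbitCusp H769.cuspSumIndep H769.cuspSystemConjDelta

/-- **Block PD with Hecke operators**, unconditional. -/
theorem pdHecke : PDHeckeStatement.{u} :=
  pdHecke_of_pd H281.hkStatement.2.1 H281.hkStatement.2.2.2.2.2.2.2.1 pd

end Fermat.Agent.S41.H585
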