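import Fermat.Agent.S41.H585.Generate

/-!
# S41, leaf AMALG (helper585): `Γ₀(N)[1/r] = Γ₀(N) *_{Γ₀(Nr)} δ⁻¹ Γ₀(N) δ`  — universal property

Main results (`r` prime, `N` coprime to `r`):

* `amalgEquiv hN : Monoid.PushoutI (baseIncl (Ga N) (Gb N r)) ≃* Delta N r`;
* `amalg_ext hN f1 f2 hcompat : ∃! Φ : Delta N r →* K, Φ ∘ j1 = f1 ∧ Φ ∘ j2 = f2` for every group
  `K` and every pair of homomorphisms `f1 f2 : Γ₀(N) →* K` which agree on `Γ₀(N r)`, i.e.
  `J1 N γ = J2 N r γ' → f1 γ = f2 γ'` (`J1 γ = J2 γ'` says `γ ∈ Γ₀(N r)` and `γ' = δ γ δ⁻¹`).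
-/

set_option autoImplicit false
set_option linter.unusedSectionVars false

namespace Fermat.Agent.S41.H585

open Matrix CongruenceSubgroup Monoid
open scoped MatrixGroups

variable {N r : ℕ} [hr : Fact r.Prime]

lemma amalgMap_of (A B : Subgroup SL(2, ℚ)) (i : Bool) (g : ↥(fac A B i)) :
    amalgMap A B (PushoutI.of i g) = (g : SL(2, ℚ)) := by
  simp [amalgMap]

lemma amalgMap_base (A B : Subgroup SL(2, ℚ)) (h : ↥(A ⊓ B)) :
    amalgMap A B (PushoutI.base (baseIncl A B) h) = (h : SL(2, ℚ)) := by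
  simp [amalgMap]

lemma range_amalgMap (A B : Subgroup SL(2, ℚ)) : (amalgMap A B).range = A ⊔ B := by
  apply le_antisymm
  · rintro _ ⟨x, rfl⟩
    induction x using PushoutI.induction_on with
    | of i g =>
      rw [amalgMap_of]
      cases i
      · exact (le_sup_left : A ≤ A ⊔ B) g.2
      · exact (le_sup_right : B ≤ A ⊔ B) g.2
    | base h =>
      rw [amalgMap_base]
      exact (le_sup_left : A ≤ A ⊔ B) h.2.1
    | mul x y hx hy =>
      rw [map_mul]
      exact (A ⊔ B).mul_mem hx hy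
  · apply sup_le
    · intro g hg
      exact ⟨PushoutI.of false ⟨g, hg⟩, amalgMap_of A B false ⟨g, hg⟩⟩
    · intro g hg
      exact ⟨PushoutI.of true ⟨g, hg⟩, amalgMap_of A B true ⟨g, hg⟩⟩

lemma range_amalgMap_Gamma0 (hN : Nat.Coprime N r) :
    (amalgMap (Ga N) (Gb N r)).range = Delta N r := by
  rw [range_amalgMap]
  exact Sgen_eq_Delta hN

/-- **AMALG**: the amalgamated product is isomorphic to `Γ₀(N)[1/r]`. -/
noncomputable def amalgEquiv (hN : Nat.Coprime N r) :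
    PushoutI (baseIncl (Ga N) (Gb N r)) ≃* Delta N r :=
  (MonoidHom.ofInjective (amalgMap_injective_Gamma0 hN)).trans
    (MulEquiv.subgroupCongr (range_amalgMap_Gamma0 hN))

lemma amalgEquiv_apply (hN : Nat.Coprime N r) (x : PushoutI (baseIncl (Ga N) (Gb N r))) :
    ((amalgEquiv hN x : Delta N r) : SL(2, ℚ)) = amalgMap (Ga N) (Gb N r) x := rfl

variable (N r) in
/-- The first embedding `Γ₀(N) → Γ₀(N)[1/r]`. -/
def j1 : Gamma0 N →* Delta N r :=
  (J1 N).codRestrict (Delta N r) (fun γ => Ga_le_Delta ⟨γ, rfl⟩)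

variable (N r) in
/-- The second embedding `Γ₀(N) → Γ₀(N)[1/r]`, `γ ↦ δ⁻¹ γ δ`. -/
def j2 : Gamma0 N →* Delta N r :=
  (J2 N r).codRestrict (Delta N r) (fun γ => Gb_le_Delta ⟨γ, rfl⟩)

@[simp] lemma coe_j1 (γ : Gamma0 N) : ((j1 N r γ : Delta N r) : SL(2, ℚ)) = J1 N γ := rfl
@[simp] lemma coe_j2 (γ : Gamma0 N) : ((j2 N r γ : Delta N r) : SL(2, ℚ)) = J2 N r γ := rfl

section Ext

variable {K : Type*} [Group K] (f1 f2 : Gamma0 N →* K)

/-- `f1` transported to `G_a`. -/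
noncomputable def onGa : ↥(Ga N) →* K :=
  f1.comp (MonoidHom.ofInjective (J1_injective N)).symm.toMonoidHom

/-- `f2` transported to `G_b`. -/
noncomputable def onGb : ↥(Gb N r) →* K :=
  f2.comp (MonoidHom.ofInjective (J2_injective N r)).symm.toMonoidHom

lemma onGa_eq (g : ↥(Ga N)) (γ : Gamma0 N) (hγ : J1 N γ = (g : SL(2, ℚ))) :
    onGa f1 g = f1 γ := by
  have : (MonoidHom.ofInjective (J1_injective N)).symm g = γ :=
    (MulEquiv.symm_apply_eq _).mpr (Subtype.ext hγ.symm)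
  exact congrArg f1 this

lemma onGb_eq (g : ↥(Gb N r)) (γ : Gamma0 N) (hγ : J2 N r γ = (g : SL(2, ℚ))) :
    onGb f2 g = f2 γ := by
  have : (MonoidHom.ofInjective (J2_injective N r)).symm g = γ :=
    (MulEquiv.symm_apply_eq _).mpr (Subtype.ext hγ.symm)
  exact congrArg f2 this

/-- The family of homomorphisms on the two factors. -/
noncomputable def onFac : (i : Bool) → ↥(fac (Ga N) (Gb N r) i) →* K
  | false => onGa f1
  | true => onGb f2

variable {f1 f2}

lemma onFac_compat (hcompat : ∀ γ γ' : Gamma0 N, J1 N γ = J2 N r γ' → f1 γ = f2 γ') (i : Bool) :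
    (onFac f1 f2 i).comp (baseIncl (Ga N) (Gb N r) i) =
      (onGa f1).comp (baseIncl (Ga N) (Gb N r) false) := by
  cases i
  · rfl
  · ext x
    obtain ⟨γ, hγ⟩ := x.2.1
    obtain ⟨γ', hγ'⟩ := x.2.2
    have e1 : onGb f2 (baseIncl (Ga N) (Gb N r) true x) = f2 γ' := onGb_eq f2 _ γ' hγ'
    have e2 : onGa f1 (baseIncl (Ga N) (Gb N r) false x) = f1 γ := onGa_eq f1 _ γ hγ
    show onGb f2 (baseIncl (Ga N) (Gb N r) true x) = onGa f1 (baseIncl (Ga N) (Gb N r) false x)
    rw [e1, e2]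
    exact (hcompat γ γ' (hγ.trans hγ'.symm)).symm

/-- The glued homomorphism on the amalgamated product. -/
noncomputable def amalgLift
    (hcompat : ∀ γ γ' : Gamma0 N, J1 N γ = J2 N r γ' → f1 γ = f2 γ') :
    PushoutI (baseIncl (Ga N) (Gb N r)) →* K :=
  PushoutI.lift (onFac f1 f2) ((onGa f1).comp (baseIncl (Ga N) (Gb N r) false))
    (onFac_compat hcompat)

lemma amalgLift_of (hcompat : ∀ γ γ' : Gamma0 N, J1 N γ = J2 N r γ' → f1 γ = f2 γ')
    (i : Bool) (g : ↥(fac (Ga N) (Gb N r) i)) :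
    amalgLift hcompat (PushoutI.of (φ := baseIncl (Ga N) (Gb N r)) i g) = onFac f1 f2 i g := by
  unfold amalgLift
  exact PushoutI.lift_of (onFac f1 f2) _ (onFac_compat hcompat) g

lemma amalgLift_of_false (hcompat : ∀ γ γ' : Gamma0 N, J1 N γ = J2 N r γ' → f1 γ = f2 γ')
    (g : ↥(fac (Ga N) (Gb N r) false)) :
    amalgLift hcompat (PushoutI.of (φ := baseIncl (Ga N) (Gb N r)) false g) = onGa f1 g :=
  amalgLift_of hcompat false g

lemma amalgLift_of_true (hcompat : ∀ γ γ' : Gamma0 N, J1 N γ = J2 N r γ' → f1 γ = f2 γ')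
    (g : ↥(fac (Ga N) (Gb N r) true)) :
    amalgLift hcompat (PushoutI.of (φ := baseIncl (Ga N) (Gb N r)) true g) = onGb f2 g :=
  amalgLift_of hcompat true g

lemma amalgEquiv_of_false (hN : Nat.Coprime N r) (γ : Gamma0 N)
    (g : ↥(fac (Ga N) (Gb N r) false)) (hg : J1 N γ = (g : SL(2, ℚ))) :
    amalgEquiv hN (PushoutI.of (φ := baseIncl (Ga N) (Gb N r)) false g) = j1 N r γ := by
  apply Subtype.ext
  exact (amalgMap_of (Ga N) (Gb N r) false g).trans hg.symm

lemma amalgEquiv_of_true (hN : Nat.Coprime N r) (γ : Gamma0 N)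
    (g : ↥(fac (Ga N) (Gb N r) true)) (hg : J2 N r γ = (g : SL(2, ℚ))) :
    amalgEquiv hN (PushoutI.of (φ := baseIncl (Ga N) (Gb N r)) true g) = j2 N r γ := by
  apply Subtype.ext
  exact (amalgMap_of (Ga N) (Gb N r) true g).trans hg.symm

/-- **AMALG, universal property**: two homomorphisms on `Γ₀(N)` which agree on `Γ₀(N r)`
(through `γ ↦ δ γ δ⁻¹`) glue to a unique homomorphism on `Γ₀(N)[1/r]`. -/
theorem amalg_ext (hN : Nat.Coprime N r) (f1 f2 : Gamma0 N →* K)
    (hcompat : ∀ γ γ' : Gamma0 N, J1 N γ = J2 N r γ' → f1 γ = f2 γ') :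
    ∃! Φ : Delta N r →* K, (∀ γ, Φ (j1 N r γ) = f1 γ) ∧ (∀ γ, Φ (j2 N r γ) = f2 γ) := by
  refine ⟨(amalgLift hcompat).comp (amalgEquiv hN).symm.toMonoidHom, ⟨?_, ?_⟩, ?_⟩
  · intro γ
    have h := amalgEquiv_of_false hN γ ⟨J1 N γ, ⟨γ, rfl⟩⟩ rfl
    have h2 : (amalgEquiv hN).symm (j1 N r γ) =
        PushoutI.of (φ := baseIncl (Ga N) (Gb N r)) false ⟨J1 N γ, ⟨γ, rfl⟩⟩ :=
      (MulEquiv.symm_apply_eq _).mpr h.symm
    show amalgLift hcompat ((amalgEquiv hN).symm (j1 N r γ)) = f1 γ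
    rw [h2]
    exact (amalgLift_of_false hcompat _).trans (onGa_eq f1 _ γ rfl)
  · intro γ
    have h := amalgEquiv_of_true hN γ ⟨J2 N r γ, ⟨γ, rfl⟩⟩ rfl
    have h2 : (amalgEquiv hN).symm (j2 N r γ) =
        PushoutI.of (φ := baseIncl (Ga N) (Gb N r)) true ⟨J2 N r γ, ⟨γ, rfl⟩⟩ :=
      (MulEquiv.symm_apply_eq _).mpr h.symm
    show amalgLift hcompat ((amalgEquiv hN).symm (j2 N r γ)) = f2 γ
    rw [h2]
    exact (amalgLift_of_true hcompat _).trans (onGb_eq f2 _ γ rfl)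
  · rintro Φ ⟨h1, h2⟩
    have key : ∀ y, Φ (amalgEquiv hN y) = amalgLift hcompat y := by
      intro y
      induction y using PushoutI.induction_on with
      | of i g =>
        cases i
        · obtain ⟨γ, hγ⟩ := g.2
          exact ((congrArg Φ (amalgEquiv_of_false hN γ g hγ)).trans (h1 γ)).trans
            (((amalgLift_of_false hcompat g).trans (onGa_eq f1 g γ hγ)).symm)
        · obtain ⟨γ, hγ⟩ := g.2
          exact ((congrArg Φ (amalgEquiv_of_true hN γ g hγ)).trans (h2 γ)).trans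
            (((amalgLift_of_true hcompat g).trans (onGb_eq f2 g γ hγ)).symm)
      | base h =>
        obtain ⟨γ, hγ⟩ := h.2.1
        have hb : PushoutI.base (baseIncl (Ga N) (Gb N r)) h =
            PushoutI.of (φ := baseIncl (Ga N) (Gb N r)) false
              (baseIncl (Ga N) (Gb N r) false h) :=
          (PushoutI.of_apply_eq_base (baseIncl (Ga N) (Gb N r)) false h).symm
        rw [hb]
        exact ((congrArg Φ (amalgEquiv_of_false hN γ _ hγ)).trans (h1 γ)).trans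
          (((amalgLift_of_false hcompat _).trans (onGa_eq f1 _ γ hγ)).symm)
      | mul x y hx hy =>
        rw [map_mul, map_mul, map_mul, hx, hy]
    ext x
    obtain ⟨y, rfl⟩ := (amalgEquiv hN).surjective x
    rw [key]
    show amalgLift hcompat y = amalgLift hcompat ((amalgEquiv hN).symm (amalgEquiv hN y))
    rw [MulEquiv.symm_apply_apply]

end Ext

end Fermat.Agent.S41.H585
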