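import Mathlib

/-!
# S41, leaf AMALG (helper585): a ping-pong criterion for amalgamated products of two subgroups

`A B : Subgroup G`.  If `G` acts on a set with two disjoint nonempty subsets `X₀, X₁` such that
`A \ B` maps `X₁` into `X₀`, `B \ A` maps `X₀` into `X₁`, `A ⊓ B` preserves both, and both indices
`[A : A ⊓ B]`, `[B : A ⊓ B]` are at least `3` (in the form: for `t ∈ A \ B` there is `g ∈ A \ B`
with `g t ∉ B`, and symmetrically), then the natural map `A *_{A ⊓ B} B → G` is injective.
-/

set_option autoImplicit false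

namespace Fermat.Agent.S41.H585

open Monoid Monoid.CoprodI

section Abstract

variable {G : Type*} [Group G] (A B : Subgroup G)

/-- The two factors, indexed by `Bool`: `false ↦ A`, `true ↦ B`. -/
def fac : Bool → Subgroup G := fun i => cond i B A

@[simp] lemma fac_false : fac A B false = A := rfl
@[simp] lemma fac_true : fac A B true = B := rfl

lemma inf_le_fac (i : Bool) : A ⊓ B ≤ fac A B i := by
  cases i
  · exact inf_le_left
  · exact inf_le_right

/-- The structure maps `A ⊓ B → A`, `A ⊓ B → B`. -/
def baseIncl (i : Bool) : ↥(A ⊓ B) →* ↥(fac A B i) := Subgroup.inclusion (inf_le_fac A B i)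

lemma baseIncl_injective (i : Bool) : Function.Injective (baseIncl A B i) :=
  Subgroup.inclusion_injective _

lemma mem_range_baseIncl {i : Bool} (g : ↥(fac A B i)) :
    g ∈ (baseIncl A B i).range ↔ (g : G) ∈ fac A B (!i) := by
  constructor
  · rintro ⟨h, rfl⟩
    have := h.2
    cases i
    · exact this.2
    · exact this.1
  · intro hg
    refine ⟨⟨(g : G), ?_⟩, rfl⟩
    have := g.2
    cases i
    · exact ⟨this, hg⟩
    · exact ⟨hg, this⟩

/-- The natural map from the amalgam to `G`. -/
def amalgMap : PushoutI (baseIncl A B) →* G :=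
  PushoutI.lift (fun i => (fac A B i).subtype) (A ⊓ B).subtype (by intro i; ext x; rfl)

/-- The natural map from the free product to `G`. -/
def freeMap : CoprodI (fun i => ↥(fac A B i)) →* G := CoprodI.lift (fun i => (fac A B i).subtype)

lemma amalgMap_ofCoprodI (z : CoprodI (fun i => ↥(fac A B i))) :
    amalgMap A B (PushoutI.ofCoprodI z) = freeMap A B z := by
  have : (amalgMap A B).comp PushoutI.ofCoprodI = freeMap A B := by
    apply CoprodI.ext_hom
    intro i
    ext g
    simp [amalgMap, freeMap]
  exact DFunLike.congr_fun this z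

variable {Ω : Type*} [MulAction G Ω] (side : Bool → Set Ω)

/-- The hypotheses of the ping-pong criterion. -/
structure PingPongData : Prop where
  disj : Disjoint (side false) (side true)
  nonempty : ∀ i, (side i).Nonempty
  pp : ∀ i, ∀ g ∈ fac A B i, g ∉ fac A B (!i) → ∀ x ∈ side (!i), g • x ∈ side i
  base : ∀ h ∈ A ⊓ B, ∀ i, ∀ x ∈ side i, h • x ∈ side i
  idx : ∀ i, ∀ t ∈ fac A B i, t ∉ fac A B (!i) →
    ∃ g ∈ fac A B i, g ∉ fac A B (!i) ∧ g * t ∉ fac A B (!i)

variable {A B side}

lemma not_subset_side (hD : PingPongData A B side) (i : Bool) : ¬ side (!i) ⊆ side i := by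
  intro h
  obtain ⟨x, hx⟩ := hD.nonempty (!i)
  have hx' := h hx
  cases i
  · exact Set.disjoint_left.mp hD.disj hx' hx
  · exact Set.disjoint_left.mp hD.disj hx hx'

/-- Key induction: a reduced word, with its head multiplied by `y`, maps `side (!j)` into
`side i`. -/
lemma neWord_pp (hD : PingPongData A B side) {i j : Bool}
    (w : NeWord (fun i => ↥(fac A B i)) i j)
    (hw : ∀ l ∈ w.toList, ((l.2 : ↥(fac A B l.1)) : G) ∉ fac A B (!l.1))
    (y : G) (hy : y ∈ fac A B i) (hyw : y * (w.head : G) ∉ fac A B (!i)) :
    ∀ x ∈ side (!j), (y * freeMap A B w.prod) • x ∈ side i := by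
  induction w generalizing y with
  | singleton g hg =>
    intro x hx
    rw [NeWord.prod_singleton]
    simp only [freeMap, CoprodI.lift_of, Subgroup.coe_subtype]
    exact hD.pp _ _ ((fac A B _).mul_mem hy g.2) hyw x hx
  | @append i j k l w₁ hne w₂ ih₁ ih₂ =>
    intro x hx
    rw [NeWord.append_prod, map_mul, ← mul_assoc, mul_smul]
    have hw₁ : ∀ l ∈ w₁.toList, ((l.2 : ↥(fac A B l.1)) : G) ∉ fac A B (!l.1) := by
      intro l hl
      exact hw l (by simp [hl])
    have hw₂ : ∀ l ∈ w₂.toList, ((l.2 : ↥(fac A B l.1)) : G) ∉ fac A B (!l.1) := by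
      intro l hl
      exact hw l (by simp [hl])
    have h2 : (freeMap A B w₂.prod) • x ∈ side k := by
      have hhead : ((⟨k, w₂.head⟩ : Σ i, ↥(fac A B i))) ∈ w₂.toList := by
        have := w₂.toList_head?
        exact List.mem_of_mem_head? (by rw [this]; rfl)
      have := ih₂ hw₂ 1 (one_mem _) (by simpa using hw₂ _ hhead) x hx
      simpa using this
    have hjk : k = !j := by
      cases j <;> cases k <;> simp_all
    have e : side k = side (!j) := by rw [hjk]
    rw [e] at h2
    exact ih₁ hw₁ y hy (by simpa using hyw) _ h2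

/-- **Ping-pong criterion**: the amalgam `A *_{A ⊓ B} B` embeds in `G`. -/
theorem amalgMap_injective (hD : PingPongData A B side) :
    Function.Injective (amalgMap A B) := by
  classical
  rw [injective_iff_map_eq_one]
  intro x hx
  obtain ⟨d⟩ := PushoutI.NormalWord.transversal_nonempty (baseIncl A B) (baseIncl_injective A B)
  obtain ⟨w, rfl⟩ := (PushoutI.NormalWord.equiv (d := d)).symm.surjective x
  change amalgMap A B w.prod = 1 at hx
  change w.prod = 1
  rw [PushoutI.NormalWord.prod, map_mul, amalgMap_ofCoprodI] at hx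
  have hbase : amalgMap A B (PushoutI.base (baseIncl A B) w.head) = (w.head : G) := by
    simp [amalgMap]
  rw [hbase] at hx
  -- the letters of `w` are not in the base group
  have hred : ∀ l ∈ w.toWord.toList, ((l.2 : ↥(fac A B l.1)) : G) ∉ fac A B (!l.1) := by
    rintro ⟨i, g⟩ hl hmem
    have hg1 : g ≠ 1 := w.toWord.ne_one _ hl
    have hgset : g ∈ d.set i := w.normalized i g hl
    have hgr : g ∈ (baseIncl A B i).range := (mem_range_baseIncl A B g).mpr hmem
    have hinj := (d.compl i).1
    have := @hinj (⟨g, hgr⟩, ⟨1, d.one_mem i⟩) (⟨1, one_mem _⟩, ⟨g, hgset⟩) (by simp)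
    simp only [Prod.mk.injEq, Subtype.mk.injEq] at this
    exact hg1 this.1
  by_cases hemp : w.toWord = Word.empty
  · rw [hemp, Word.prod_empty, map_one, mul_one] at hx
    have hh : w.head = 1 := Subtype.ext hx
    rw [PushoutI.NormalWord.prod, hemp, hh]
    simp
  · exfalso
    obtain ⟨i, j, w', hw'⟩ := NeWord.of_word w.toWord hemp
    have hprod : w'.prod = w.toWord.prod := by rw [NeWord.prod, hw']
    have hred' : ∀ l ∈ w'.toList, ((l.2 : ↥(fac A B l.1)) : G) ∉ fac A B (!l.1) := by
      intro l hl
      apply hred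
      rw [← hw']
      exact hl
    rw [← hprod] at hx
    have hheadmem : ((⟨i, w'.head⟩ : Σ i, ↥(fac A B i))) ∈ w'.toList := by
      have := w'.toList_head?
      exact List.mem_of_mem_head? (by rw [this]; rfl)
    have hhead : ((w'.head : ↥(fac A B i)) : G) ∉ fac A B (!i) := hred' _ hheadmem
    have hHi : (w.head : G) ∈ fac A B i := inf_le_fac A B i w.head.2
    have hHi' : (w.head : G) ∈ fac A B (!i) := inf_le_fac A B (!i) w.head.2
    have ht : (w.head : G) * (w'.head : G) ∉ fac A B (!i) := by
      intro h
      apply hhead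
      have := (fac A B (!i)).mul_mem ((fac A B (!i)).inv_mem hHi') h
      simpa using this
    by_cases hij : i = j
    · subst hij
      apply not_subset_side hD i
      intro x hxs
      have := neWord_pp hD w' hred' (w.head : G) hHi ht x hxs
      rwa [hx, one_smul] at this
    · have htmem : (w.head : G) * (w'.head : G) ∈ fac A B i :=
        (fac A B i).mul_mem hHi w'.head.2
      obtain ⟨g, hg, hgn, hgt⟩ := hD.idx i _ htmem ht
      apply not_subset_side hD i
      intro x hxs
      have hji : j = !i := by
        cases i <;> cases j <;> simp_all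
      have hginv : g⁻¹ ∉ fac A B (!i) := fun h => hgn (by simpa using (fac A B (!i)).inv_mem h)
      have h1 : g⁻¹ • x ∈ side i := hD.pp i _ ((fac A B i).inv_mem hg) hginv x hxs
      have e : side (!j) = side i := by rw [hji]; simp
      have h1' : g⁻¹ • x ∈ side (!j) := by rw [e]; exact h1
      have h2 := neWord_pp hD w' hred' (g * (w.head : G)) ((fac A B i).mul_mem hg hHi)
        (by rwa [mul_assoc]) _ h1'
      have : (g * (w.head : G) * freeMap A B w'.prod) • g⁻¹ • x = x := by
        rw [mul_assoc, hx, mul_one, smul_smul, mul_inv_cancel, one_smul]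
      rwa [this] at h2

end Abstract

end Fermat.Agent.S41.H585
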