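import Mathlib

/-!
# S41, leaf AMALG (helper585): definitions

`r` a prime, `N` a level prime to `r`.  Inside `SL(2, ℚ)`:
* `J1 N : Γ₀(N) →* SL(2, ℚ)` the inclusion (cast of entries),
* `J2 N r : Γ₀(N) →* SL(2, ℚ)`, `γ ↦ δ⁻¹ γ δ = !![a, b / r; r * c, d]`, `δ = diag(r, 1)`,
* `Ga N = range J1`, `Gb N r = range J2`,
* `Delta N r = {g ∈ SL(2, ℚ) | entries in ℤ[1/r], c ∈ N ℤ[1/r]}` (`= Γ₀(N)[1/r]`).
-/

set_option autoImplicit false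

namespace Fermat.Agent.S41.H585

open Matrix CongruenceSubgroup
open scoped MatrixGroups

/-- `x ∈ ℤ[1/r]`. -/
def IsRInt (r : ℕ) (x : ℚ) : Prop := ∃ (k : ℕ) (m : ℤ), x * (r : ℚ) ^ k = m

lemma isRInt_int (r : ℕ) (m : ℤ) : IsRInt r (m : ℚ) := ⟨0, m, by simp⟩

lemma isRInt_zero (r : ℕ) : IsRInt r 0 := ⟨0, 0, by simp⟩

lemma isRInt_one (r : ℕ) : IsRInt r 1 := ⟨0, 1, by simp⟩

lemma IsRInt.add {r : ℕ} {x y : ℚ} (hx : IsRInt r x) (hy : IsRInt r y) : IsRInt r (x + y) := by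
  obtain ⟨k, m, hm⟩ := hx
  obtain ⟨l, n, hn⟩ := hy
  refine ⟨k + l, m * (r : ℤ) ^ l + n * (r : ℤ) ^ k, ?_⟩
  push_cast
  rw [← hm, ← hn, pow_add]; ring

lemma IsRInt.mul {r : ℕ} {x y : ℚ} (hx : IsRInt r x) (hy : IsRInt r y) : IsRInt r (x * y) := by
  obtain ⟨k, m, hm⟩ := hx
  obtain ⟨l, n, hn⟩ := hy
  refine ⟨k + l, m * n, ?_⟩
  push_cast
  rw [← hm, ← hn, pow_add]; ring

lemma IsRInt.neg {r : ℕ} {x : ℚ} (hx : IsRInt r x) : IsRInt r (-x) := by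
  obtain ⟨k, m, hm⟩ := hx
  exact ⟨k, -m, by push_cast; rw [← hm]; ring⟩

lemma IsRInt.sub {r : ℕ} {x y : ℚ} (hx : IsRInt r x) (hy : IsRInt r y) : IsRInt r (x - y) := by
  rw [sub_eq_add_neg]; exact hx.add hy.neg

lemma isRInt_inv_pow (r : ℕ) (hr : r ≠ 0) (k : ℕ) : IsRInt r (((r : ℚ) ^ k)⁻¹) :=
  ⟨k, 1, by
    have : (r : ℚ) ^ k ≠ 0 := pow_ne_zero _ (Nat.cast_ne_zero.mpr hr)
    simp [this]⟩

lemma IsRInt.nsmul {r : ℕ} {x : ℚ} (hx : IsRInt r x) (n : ℤ) : IsRInt r (n * x) :=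
  (isRInt_int r n).mul hx

/-- `Γ₀(N)[1/r]`: matrices in `SL(2, ℚ)` with entries in `ℤ[1/r]` and lower left entry in
`N ℤ[1/r]`. -/
def Delta (N r : ℕ) : Subgroup SL(2, ℚ) where
  carrier := {g | (∀ i j, IsRInt r (g i j)) ∧ ∃ t : ℚ, IsRInt r t ∧ g 1 0 = N * t}
  one_mem' := by
    refine ⟨fun i j => ?_, 0, isRInt_zero r, by simp⟩
    fin_cases i <;> fin_cases j <;> simp [isRInt_one, isRInt_zero]
  mul_mem' := by
    rintro a b ⟨ha, ta, hta, hta'⟩ ⟨hb, tb, htb, htb'⟩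
    have hmul : ∀ i j, (a * b) i j = a i 0 * b 0 j + a i 1 * b 1 j := by
      intro i j
      rw [Matrix.SpecialLinearGroup.coe_mul, Matrix.mul_apply, Fin.sum_univ_two]
    refine ⟨fun i j => ?_, ta * b 0 0 + a 1 1 * tb, ?_, ?_⟩
    · rw [hmul]
      exact ((ha i 0).mul (hb 0 j)).add ((ha i 1).mul (hb 1 j))
    · exact (hta.mul (hb 0 0)).add ((ha 1 1).mul htb)
    · rw [hmul, hta', htb']; ring
  inv_mem' := by
    rintro a ⟨ha, ta, hta, hta'⟩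
    have h00 : (a⁻¹ : SL(2, ℚ)) 0 0 = a 1 1 := by
      simp [Matrix.SpecialLinearGroup.SL2_inv_expl]
    have h01 : (a⁻¹ : SL(2, ℚ)) 0 1 = -a 0 1 := by
      simp [Matrix.SpecialLinearGroup.SL2_inv_expl]
    have h10 : (a⁻¹ : SL(2, ℚ)) 1 0 = -a 1 0 := by
      simp [Matrix.SpecialLinearGroup.SL2_inv_expl]
    have h11 : (a⁻¹ : SL(2, ℚ)) 1 1 = a 0 0 := by
      simp [Matrix.SpecialLinearGroup.SL2_inv_expl]
    refine ⟨fun i j => ?_, -ta, hta.neg, ?_⟩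
    · fin_cases i <;> fin_cases j
      · simpa [h00] using ha 1 1
      · simpa [h01] using (ha 0 1).neg
      · simpa [h10] using (ha 1 0).neg
      · simpa [h11] using ha 0 0
    · rw [h10, hta']; ring

lemma mem_Delta {N r : ℕ} {g : SL(2, ℚ)} :
    g ∈ Delta N r ↔ (∀ i j, IsRInt r (g i j)) ∧ ∃ t : ℚ, IsRInt r t ∧ g 1 0 = N * t := Iff.rfl

/-- The inclusion `Γ₀(N) → SL(2, ℚ)`. -/
def J1 (N : ℕ) : Gamma0 N →* SL(2, ℚ) :=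
  (Matrix.SpecialLinearGroup.map (Int.castRingHom ℚ)).comp (Gamma0 N).subtype

lemma J1_apply {N : ℕ} (γ : Gamma0 N) (i j : Fin 2) :
    (J1 N γ) i j = ((γ : SL(2, ℤ)) i j : ℚ) := rfl

/-- `diag(1/r, r) ∈ SL(2, ℚ)`... the matrix `δ⁻¹ γ δ` for `δ = diag(r, 1)`. -/
def conjMat (r : ℕ) (g : SL(2, ℚ)) : Matrix (Fin 2) (Fin 2) ℚ :=
  !![g 0 0, g 0 1 / r; r * g 1 0, g 1 1]

lemma det_conjMat {r : ℕ} (hr : r ≠ 0) (g : SL(2, ℚ)) : (conjMat r g).det = 1 := by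
  have hr' : (r : ℚ) ≠ 0 := Nat.cast_ne_zero.mpr hr
  have hdet := g.det_coe
  rw [Matrix.det_fin_two] at hdet
  rw [conjMat, Matrix.det_fin_two_of]
  field_simp
  linarith

end Fermat.Agent.S41.H585
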