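import Fermat.Agent.S41.H585.Inject

/-!
# S41, leaf AMALG (helper585): `Γ₀(N)[1/r]` is generated by `Γ₀(N)` and `δ⁻¹ Γ₀(N) δ`
-/

set_option autoImplicit false
set_option linter.unusedSectionVars false

namespace Fermat.Agent.S41.H585

open Matrix CongruenceSubgroup Monoid
open scoped MatrixGroups

variable (N r : ℕ) [hr : Fact r.Prime]

/-- Build an element of `SL(2, ℚ)` from its entries. -/
def mkSL2Q (a b c d : ℚ) (hdet : a * d - b * c = 1) : SL(2, ℚ) :=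
  ⟨!![a, b; c, d], by rw [Matrix.det_fin_two_of]; exact hdet⟩

@[simp] lemma mkSL2Q_00 (a b c d : ℚ) (hdet : a * d - b * c = 1) : (mkSL2Q a b c d hdet) 0 0 = a := rfl
@[simp] lemma mkSL2Q_01 (a b c d : ℚ) (hdet : a * d - b * c = 1) : (mkSL2Q a b c d hdet) 0 1 = b := rfl
@[simp] lemma mkSL2Q_10 (a b c d : ℚ) (hdet : a * d - b * c = 1) : (mkSL2Q a b c d hdet) 1 0 = c := rfl
@[simp] lemma mkSL2Q_11 (a b c d : ℚ) (hdet : a * d - b * c = 1) : (mkSL2Q a b c d hdet) 1 1 = d := rfl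

lemma sl2_mul_apply (g h : SL(2, ℚ)) (i j : Fin 2) :
    (g * h : SL(2, ℚ)) i j = g i 0 * h 0 j + g i 1 * h 1 j := by
  rw [Matrix.SpecialLinearGroup.coe_mul, Matrix.mul_apply, Fin.sum_univ_two]

lemma sl2_det (g : SL(2, ℚ)) : g 0 0 * g 1 1 - g 0 1 * g 1 0 = 1 := by
  have := g.det_coe
  rwa [Matrix.det_fin_two] at this

/-- The subgroup generated by the two copies of `Γ₀(N)`. -/
def Sgen : Subgroup SL(2, ℚ) := Ga N ⊔ Gb N r

lemma J1_mem_Sgen (γ : Gamma0 N) : J1 N γ ∈ Sgen N r :=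
  (le_sup_left : Ga N ≤ Sgen N r) ⟨γ, rfl⟩

lemma J2_mem_Sgen (γ : Gamma0 N) : J2 N r γ ∈ Sgen N r :=
  (le_sup_right : Gb N r ≤ Sgen N r) ⟨γ, rfl⟩

/-- `diag(r ^ z, r ^ (-z))`. -/
def hRz (z : ℤ) : SL(2, ℚ) :=
  mkSL2Q ((r : ℚ) ^ z) 0 0 ((r : ℚ) ^ (-z)) (by
    have := rq_ne_zero r
    rw [mul_zero, sub_zero, ← zpow_add₀ this]; simp)

/-- The upper unipotent matrix `!![1, t; 0, 1]`. -/
def eU (t : ℚ) : SL(2, ℚ) := mkSL2Q 1 t 0 1 (by ring)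

variable {N r}

lemma hRz_mul (z w : ℤ) : hRz r z * hRz r w = hRz r (z + w) := by
  have := rq_ne_zero r
  apply sl2_ext
  · rw [sl2_mul_apply]; simp [hRz, zpow_add₀ this]
  · rw [sl2_mul_apply]; simp [hRz]
  · rw [sl2_mul_apply]; simp [hRz]
  · rw [sl2_mul_apply]; simp [hRz, zpow_add₀ this]; ring

lemma hRz_zero : hRz r 0 = 1 := by
  apply sl2_ext <;> simp [hRz]

lemma hRz_one_mem (hN : Nat.Coprime N r) : hRz r 1 ∈ Sgen N r := by
  -- Bezout: `r a' - N b = 1`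
  have hcop : IsCoprime (r : ℤ) (N : ℤ) := by
    exact_mod_cast (Nat.isCoprime_iff_coprime.mpr hN.symm)
  obtain ⟨u, v, huv⟩ := hcop
  -- `u * r + v * N = 1`; `a' = u`, `b = -v`
  let γ : Gamma0 N := mkGamma0 N u (-v) N r (by linear_combination huv) dvd_rfl
  let γβ : Gamma0 N := mkGamma0 N (r * u) (-v) N 1 (by linear_combination huv) dvd_rfl
  have hr' := rq_ne_zero r
  have key : hRz r 1 = (J1 N γ)⁻¹ * J2 N r γβ := by
    rw [eq_inv_mul_iff_mul_eq]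
    apply sl2_ext
    · rw [sl2_mul_apply]; simp [hRz, J1_apply, J2_00, γ, γβ]; ring
    · rw [sl2_mul_apply]; simp [hRz, J1_apply, J2_01, γ, γβ]; ring
    · rw [sl2_mul_apply]; simp [hRz, J1_apply, J2_10, γ, γβ]; ring
    · rw [sl2_mul_apply]; simp [hRz, J1_apply, J2_11, γ, γβ]
  rw [key]
  exact (Sgen N r).mul_mem ((Sgen N r).inv_mem (J1_mem_Sgen N r γ)) (J2_mem_Sgen N r γβ)

lemma hRz_mem (hN : Nat.Coprime N r) (z : ℤ) : hRz r z ∈ Sgen N r := by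
  induction z using Int.induction_on with
  | zero => rw [hRz_zero]; exact one_mem _
  | succ n ih =>
    rw [← hRz_mul]
    exact (Sgen N r).mul_mem ih (hRz_one_mem hN)
  | pred n ih =>
    have h1 : hRz r (-1) = (hRz r 1)⁻¹ := by
      rw [eq_inv_iff_mul_eq_one, hRz_mul]; simpa using hRz_zero (r := r)
    rw [sub_eq_add_neg, ← hRz_mul, h1]
    exact (Sgen N r).mul_mem ih ((Sgen N r).inv_mem (hRz_one_mem hN))

lemma eU_int_mem (m : ℤ) : eU (m : ℚ) ∈ Sgen N r := by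
  have : eU (m : ℚ) = J1 N (mkGamma0 N 1 m 0 1 (by ring) (dvd_zero _)) := by
    apply sl2_ext <;> simp [eU, J1_apply]
  rw [this]
  exact J1_mem_Sgen N r _

lemma eU_mem (hN : Nat.Coprime N r) {t : ℚ} (ht : IsRInt r t) : eU t ∈ Sgen N r := by
  obtain ⟨k, m, hm⟩ := ht
  have hr' := rq_ne_zero r
  have hrk : (r : ℚ) ^ k ≠ 0 := pow_ne_zero _ hr'
  have key : eU t = hRz r (-(k : ℤ)) * eU ((m * (r : ℤ) ^ k : ℤ) : ℚ) * hRz r (k : ℤ) := by
    have ht : t = m / (r : ℚ) ^ k := by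
      field_simp; exact hm
    apply sl2_ext
    · rw [sl2_mul_apply, sl2_mul_apply, sl2_mul_apply]
      simp [hRz, eU]
    · rw [sl2_mul_apply, sl2_mul_apply, sl2_mul_apply]
      simp [hRz, eU, ht]
      field_simp
    · rw [sl2_mul_apply, sl2_mul_apply, sl2_mul_apply]
      simp [hRz, eU]
    · rw [sl2_mul_apply, sl2_mul_apply, sl2_mul_apply]
      simp [hRz, eU]
  rw [key]
  exact (Sgen N r).mul_mem ((Sgen N r).mul_mem (hRz_mem hN _) (eU_int_mem _)) (hRz_mem hN _)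

/-- Upper triangular elements with diagonal `(r^z, r^(-z))` and `ℤ[1/r]` off-diagonal entry. -/
lemma upper_mem (hN : Nat.Coprime N r) (g : SL(2, ℚ)) (z : ℤ) (h10 : g 1 0 = 0)
    (h11 : g 1 1 = (r : ℚ) ^ (-z)) (h01 : IsRInt r (g 0 1)) : g ∈ Sgen N r := by
  have hr' := rq_ne_zero r
  have hz : (r : ℚ) ^ (-z) ≠ 0 := zpow_ne_zero _ hr'
  have h00 : g 0 0 = (r : ℚ) ^ z := by
    have := sl2_det g
    rw [h10, h11, mul_zero, sub_zero] at this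
    rw [_root_.zpow_neg] at this
    have hz' : (r : ℚ) ^ z ≠ 0 := zpow_ne_zero _ hr'
    field_simp at this
    exact this
  have hrint : IsRInt r ((r : ℚ) ^ (-z)) := by
    rcases le_or_gt 0 z with h | h
    · obtain ⟨n, rfl⟩ := Int.eq_ofNat_of_zero_le h
      rw [_root_.zpow_neg, zpow_natCast]
      exact isRInt_inv_pow r hr.out.ne_zero n
    · obtain ⟨n, hn⟩ := Int.eq_ofNat_of_zero_le (by omega : 0 ≤ -z)
      rw [hn, zpow_natCast]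
      exact ⟨0, (r : ℤ) ^ n, by simp⟩
  have key : g = hRz r z * eU ((r : ℚ) ^ (-z) * g 0 1) := by
    apply sl2_ext
    · rw [sl2_mul_apply]; simp [hRz, eU, h00]
    · rw [sl2_mul_apply]; simp [hRz, eU]
      have hz' : (r : ℚ) ^ z ≠ 0 := zpow_ne_zero _ hr'
      field_simp
    · rw [sl2_mul_apply]; simp [hRz, eU, h10]
    · rw [sl2_mul_apply]; simp [hRz, eU, h11]
  rw [key]
  exact (Sgen N r).mul_mem (hRz_mem hN z) (eU_mem hN (hrint.mul h01))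

end Fermat.Agent.S41.H585

namespace Fermat.Agent.S41.H585

open Matrix CongruenceSubgroup Monoid
open scoped MatrixGroups

variable {N r : ℕ} [hr : Fact r.Prime]

lemma Ga_le_Delta : Ga N ≤ Delta N r := by
  rintro g ⟨γ, rfl⟩
  refine ⟨fun i j => ?_, ?_⟩
  · rw [J1_apply]; exact isRInt_int r _
  · obtain ⟨t, ht⟩ := Gamma0_dvd N γ
    refine ⟨(t : ℚ), isRInt_int r t, ?_⟩
    rw [J1_apply, ht]; push_cast; ring

lemma Gb_le_Delta : Gb N r ≤ Delta N r := by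
  rintro g ⟨γ, rfl⟩
  have hr' := rq_ne_zero r
  refine ⟨fun i j => ?_, ?_⟩
  · fin_cases i <;> fin_cases j
    · exact isRInt_int r _
    · show IsRInt r ((J2 N r γ) 0 1)
      rw [J2_01]
      exact ⟨1, (γ : SL(2, ℤ)) 0 1, by field_simp⟩
    · show IsRInt r ((J2 N r γ) 1 0)
      rw [J2_10]
      exact (isRInt_int r r).mul (isRInt_int r _)
    · exact isRInt_int r _
  · obtain ⟨t, ht⟩ := Gamma0_dvd N γ
    refine ⟨((r * t : ℤ) : ℚ), isRInt_int r _, ?_⟩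
    rw [J2_10, ht]; push_cast; ring

lemma Sgen_le_Delta : Sgen N r ≤ Delta N r := sup_le Ga_le_Delta Gb_le_Delta

/-- **AMALG, generation**: `Γ₀(N)[1/r]` is generated by `Γ₀(N)` and `δ⁻¹ Γ₀(N) δ`. -/
theorem Delta_le_Sgen (hN : Nat.Coprime N r) : Delta N r ≤ Sgen N r := by
  intro g hg
  have hr' := rq_ne_zero r
  obtain ⟨hent, t, ht, hgt⟩ := hg
  obtain ⟨k1, m1, hm1⟩ := hent 1 1
  obtain ⟨k2, m2, hm2⟩ := ht
  obtain ⟨k3, m3, hm3⟩ := hent 0 0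
  obtain ⟨k4, m4, hm4⟩ := hent 0 1
  obtain ⟨k, hk⟩ : ∃ k : ℕ, k = k1 + k2 := ⟨_, rfl⟩
  obtain ⟨d0, hd0⟩ : ∃ d0 : ℤ, d0 = m1 * (r : ℤ) ^ k2 := ⟨_, rfl⟩
  obtain ⟨t0, ht0⟩ : ∃ t0 : ℤ, t0 = m2 * (r : ℤ) ^ k1 := ⟨_, rfl⟩
  obtain ⟨c0, hc0⟩ : ∃ c0 : ℤ, c0 = N * t0 := ⟨_, rfl⟩
  have hd0' : g 1 1 * (r : ℚ) ^ k = d0 := by
    rw [hd0, hk, pow_add, ← mul_assoc, hm1]; push_cast; ring
  have hc0' : g 1 0 * (r : ℚ) ^ k = c0 := by
    rw [hc0, ht0, hgt, hk, pow_add]; push_cast; rw [← hm2]; ring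
  have hrk : (r : ℚ) ^ k ≠ 0 := pow_ne_zero _ hr'
  have hdet := sl2_det g
  -- a Bezout-type identity: gcd(c0, d0) divides a power of r
  have hlin : m3 * (r : ℤ) ^ k4 * d0 - m4 * (r : ℤ) ^ k3 * c0 = (r : ℤ) ^ (k + k3 + k4) := by
    have : ((m3 * (r : ℤ) ^ k4 * d0 - m4 * (r : ℤ) ^ k3 * c0 : ℤ) : ℚ) =
        (((r : ℤ) ^ (k + k3 + k4) : ℤ) : ℚ) := by
      push_cast
      rw [← hm3, ← hm4, ← hd0', ← hc0']
      have : g 0 0 * (r : ℚ) ^ k3 * (r : ℚ) ^ k4 * (g 1 1 * (r : ℚ) ^ k) -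
          g 0 1 * (r : ℚ) ^ k4 * (r : ℚ) ^ k3 * (g 1 0 * (r : ℚ) ^ k) =
          (g 0 0 * g 1 1 - g 0 1 * g 1 0) * ((r : ℚ) ^ k * (r : ℚ) ^ k3 * (r : ℚ) ^ k4) := by ring
      rw [this, hdet, one_mul, pow_add, pow_add]
    exact_mod_cast this
  have hgcd_dvd : ((Int.gcd c0 d0 : ℕ) : ℤ) ∣ (r : ℤ) ^ (k + k3 + k4) := by
    rw [← hlin]
    exact dvd_sub (Dvd.dvd.mul_left (Int.gcd_dvd_right c0 d0) _)
      (Dvd.dvd.mul_left (Int.gcd_dvd_left c0 d0) _)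
  have hgcd_dvd' : Int.gcd c0 d0 ∣ r ^ (k + k3 + k4) := by exact_mod_cast hgcd_dvd
  obtain ⟨s, -, hs⟩ := (Nat.dvd_prime_pow hr.out).mp hgcd_dvd'
  have hpos : 0 < Int.gcd c0 d0 := by rw [hs]; exact pow_pos hr.out.pos s
  obtain ⟨c1, d1, h1, hc1, hd1⟩ := Int.exists_gcd_one hpos
  rw [hs] at hc1 hd1
  -- `N ∣ c1`
  have hNc1 : (N : ℤ) ∣ c1 := by
    have h1' : (N : ℤ) ∣ c1 * ((r ^ s : ℕ) : ℤ) := ⟨t0, by rw [← hc1, hc0]⟩
    have hcop : IsCoprime (N : ℤ) ((r ^ s : ℕ) : ℤ) := by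
      have : Nat.Coprime N (r ^ s) := Nat.Coprime.pow_right s hN
      exact_mod_cast (Nat.isCoprime_iff_coprime.mpr this)
    exact hcop.dvd_of_dvd_mul_right h1'
  -- Bezout for `(c1, d1)`
  have hcop1 : IsCoprime c1 d1 := Int.isCoprime_iff_gcd_eq_one.mpr h1
  obtain ⟨x, y, hxy⟩ := hcop1
  -- `x * c1 + y * d1 = 1`; the inverse of `!![y, -x; c1, d1]` is `!![d1, x; -c1, y]`
  let γ' : Gamma0 N := mkGamma0 N d1 x (-c1) y (by linear_combination hxy) (Dvd.dvd.neg_right hNc1)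
  have hg10 : g 1 0 = c1 * (r : ℚ) ^ s / (r : ℚ) ^ k := by
    rw [eq_div_iff hrk, hc0', hc1]; push_cast; ring
  have hg11 : g 1 1 = d1 * (r : ℚ) ^ s / (r : ℚ) ^ k := by
    rw [eq_div_iff hrk, hd0', hd1]; push_cast; ring
  have hmem : g * J1 N γ' ∈ Sgen N r := by
    apply upper_mem hN (g * J1 N γ') ((k : ℤ) - s)
    · rw [sl2_mul_apply, hg10, hg11]
      simp only [J1_apply, γ', mkGamma0_00, mkGamma0_10]
      push_cast
      ring
    · rw [sl2_mul_apply, hg10, hg11]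
      simp only [J1_apply, γ', mkGamma0_01, mkGamma0_11]
      have hxy' : (x : ℚ) * c1 + y * d1 = 1 := by exact_mod_cast hxy
      rw [neg_sub, zpow_sub₀ hr', zpow_natCast, zpow_natCast]
      have e : (c1 : ℚ) * (r : ℚ) ^ s / (r : ℚ) ^ k * (x : ℚ) +
          (d1 : ℚ) * (r : ℚ) ^ s / (r : ℚ) ^ k * (y : ℚ) =
          (r : ℚ) ^ s / (r : ℚ) ^ k * ((x : ℚ) * c1 + y * d1) := by ring
      rw [e, hxy', mul_one]
    · rw [sl2_mul_apply]
      exact ((hent 0 0).mul (by rw [J1_apply]; exact isRInt_int r _)).add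
        ((hent 0 1).mul (by rw [J1_apply]; exact isRInt_int r _))
  have : g = (g * J1 N γ') * (J1 N γ')⁻¹ := by group
  rw [this]
  exact (Sgen N r).mul_mem hmem ((Sgen N r).inv_mem (J1_mem_Sgen N r γ'))

theorem Sgen_eq_Delta (hN : Nat.Coprime N r) : Sgen N r = Delta N r :=
  le_antisymm Sgen_le_Delta (Delta_le_Sgen hN)

end Fermat.Agent.S41.H585
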