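import Mathlib

/-!
# S41, leaf AMALG (helper585): the `r`-adic ping-pong inequalities

Pure inequalities for the `r`-adic norm on `ℚ`; `X₁ = {(x, y) | ‖y‖ < ‖x‖}`,
`X₀ = {(x, y) | ‖x‖ ≤ ‖y‖, y ≠ 0}`.
-/

set_option autoImplicit false

namespace Fermat.Agent.S41.H585

variable (r : ℕ) [hr : Fact r.Prime]

local notation "‖" x "‖ᵣ" => padicNorm r x

lemma norm_int_le_one (a : ℤ) : ‖(a : ℚ)‖ᵣ ≤ 1 := padicNorm.of_int a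

lemma norm_int_mul_le (a : ℤ) (x : ℚ) : ‖(a : ℚ) * x‖ᵣ ≤ ‖x‖ᵣ := by
  rw [padicNorm.mul]
  calc ‖(a : ℚ)‖ᵣ * ‖x‖ᵣ ≤ 1 * ‖x‖ᵣ :=
        mul_le_mul_of_nonneg_right (padicNorm.of_int a) (padicNorm.nonneg x)
    _ = ‖x‖ᵣ := one_mul _

lemma norm_int_mul_eq {a : ℤ} (ha : ¬ (r : ℤ) ∣ a) (x : ℚ) : ‖(a : ℚ) * x‖ᵣ = ‖x‖ᵣ := by
  rw [padicNorm.mul, (padicNorm.int_eq_one_iff a).mpr ha, one_mul]

lemma norm_r : ‖(r : ℚ)‖ᵣ = (r : ℚ)⁻¹ := padicNorm.padicNorm_p hr.out.one_lt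

lemma norm_r_mul (x : ℚ) : ‖(r : ℚ) * x‖ᵣ = (r : ℚ)⁻¹ * ‖x‖ᵣ := by
  rw [padicNorm.mul, norm_r]

lemma norm_div_r (x : ℚ) : ‖x / (r : ℚ)‖ᵣ = (r : ℚ) * ‖x‖ᵣ := by
  rw [padicNorm.div, norm_r]
  field_simp

lemma r_one_lt : (1 : ℚ) < r := by exact_mod_cast hr.out.one_lt

lemma r_pos : (0 : ℚ) < r := by exact_mod_cast hr.out.pos

lemma norm_pos_of_ne {x : ℚ} (hx : x ≠ 0) : 0 < ‖x‖ᵣ :=
  lt_of_le_of_ne (padicNorm.nonneg x) (fun h => hx (padicNorm.zero_of_padicNorm_eq_zero h.symm))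

lemma inv_r_mul_lt {t B : ℚ} (_ht0 : 0 ≤ t) (ht : t ≤ B) (hB : 0 < B) : (r : ℚ)⁻¹ * t < B := by
  have h4 : (r : ℚ)⁻¹ < 1 := inv_lt_one_of_one_lt₀ (r_one_lt r)
  have h5 : (0 : ℚ) < (r : ℚ)⁻¹ := inv_pos.mpr (r_pos r)
  calc (r : ℚ)⁻¹ * t ≤ (r : ℚ)⁻¹ * B := mul_le_mul_of_nonneg_left ht h5.le
    _ < 1 * B := mul_lt_mul_of_pos_right h4 hB
    _ = B := one_mul B

lemma norm_add_eq_of_lt {x y : ℚ} (h : ‖y‖ᵣ < ‖x‖ᵣ) : ‖x + y‖ᵣ = ‖x‖ᵣ := by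
  rw [padicNorm.add_eq_max_of_ne (ne_of_gt h), max_eq_left h.le]

lemma norm_add_eq_of_lt' {x y : ℚ} (h : ‖x‖ᵣ < ‖y‖ᵣ) : ‖x + y‖ᵣ = ‖y‖ᵣ := by
  rw [add_comm]; exact norm_add_eq_of_lt r h

lemma norm_add_le {x y : ℚ} {B : ℚ} (hx : ‖x‖ᵣ ≤ B) (hy : ‖y‖ᵣ ≤ B) : ‖x + y‖ᵣ ≤ B :=
  le_trans padicNorm.nonarchimedean (max_le hx hy)

/-- Elements of `G_a \ H` map `X₁` into `X₀`. -/
lemma pp_a (a b c d : ℤ) (hc : ¬ (r : ℤ) ∣ c) (x y : ℚ) (h : ‖y‖ᵣ < ‖x‖ᵣ) :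
    ‖(a : ℚ) * x + b * y‖ᵣ ≤ ‖(c : ℚ) * x + d * y‖ᵣ ∧ (c : ℚ) * x + d * y ≠ 0 := by
  have h1 : ‖(c : ℚ) * x + d * y‖ᵣ = ‖x‖ᵣ := by
    have : ‖(d : ℚ) * y‖ᵣ < ‖(c : ℚ) * x‖ᵣ := by
      rw [norm_int_mul_eq r hc]
      exact lt_of_le_of_lt (norm_int_mul_le r d y) h
    rw [norm_add_eq_of_lt r this, norm_int_mul_eq r hc]
  refine ⟨?_, ?_⟩
  · rw [h1]
    exact norm_add_le r (norm_int_mul_le r a x) (le_trans (norm_int_mul_le r b y) h.le)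
  · intro h0
    rw [h0, padicNorm.zero] at h1
    have := padicNorm.nonneg (p := r) y
    linarith

/-- Elements of `G_b \ H` map `X₀` into `X₁`. -/
lemma pp_b (a b c d : ℤ) (hb : ¬ (r : ℤ) ∣ b) (x y : ℚ) (h : ‖x‖ᵣ ≤ ‖y‖ᵣ) (hy : y ≠ 0) :
    ‖(r : ℚ) * c * x + d * y‖ᵣ < ‖(a : ℚ) * x + (b : ℚ) / r * y‖ᵣ := by
  have hypos := norm_pos_of_ne r hy
  have hr1 := r_one_lt r
  have hr0 := r_pos r
  have hby : ‖(b : ℚ) / r * y‖ᵣ = r * ‖y‖ᵣ := by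
    rw [show (b : ℚ) / r * y = ((b : ℚ) * y) / r by ring, norm_div_r, norm_int_mul_eq r hb]
  have hlt : ‖y‖ᵣ < r * ‖y‖ᵣ := by nlinarith
  have h1 : ‖(a : ℚ) * x + (b : ℚ) / r * y‖ᵣ = r * ‖y‖ᵣ := by
    have : ‖(a : ℚ) * x‖ᵣ < ‖(b : ℚ) / r * y‖ᵣ := by
      rw [hby]
      exact lt_of_le_of_lt (le_trans (norm_int_mul_le r a x) h) hlt
    rw [norm_add_eq_of_lt' r this, hby]
  rw [h1]
  refine lt_of_le_of_lt (norm_add_le r (B := ‖y‖ᵣ) ?_ (norm_int_mul_le r d y)) hlt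
  rw [mul_assoc, norm_r_mul]
  have h2 : ‖(c : ℚ) * x‖ᵣ ≤ ‖y‖ᵣ := le_trans (norm_int_mul_le r c x) h
  have h3 : (r : ℚ)⁻¹ ≤ 1 := inv_le_one_of_one_le₀ hr1.le
  calc (r : ℚ)⁻¹ * ‖(c : ℚ) * x‖ᵣ ≤ 1 * ‖(c : ℚ) * x‖ᵣ :=
        mul_le_mul_of_nonneg_right h3 (padicNorm.nonneg _)
    _ = ‖(c : ℚ) * x‖ᵣ := one_mul _
    _ ≤ ‖y‖ᵣ := h2

lemma not_dvd_of_det {a b c d : ℤ} (hdet : a * d - b * (r * c) = 1) :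
    ¬ (r : ℤ) ∣ a ∧ ¬ (r : ℤ) ∣ d := by
  have hprime : Prime (r : ℤ) := Nat.prime_iff_prime_int.mp hr.out
  constructor
  · rintro ⟨k, hk⟩
    have : (r : ℤ) ∣ 1 := ⟨k * d - b * c, by rw [← hdet, hk]; ring⟩
    exact hprime.not_dvd_one this
  · rintro ⟨k, hk⟩
    have : (r : ℤ) ∣ 1 := ⟨a * k - b * c, by rw [← hdet, hk]; ring⟩
    exact hprime.not_dvd_one this

/-- Elements of `H` preserve `X₁`. -/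
lemma pp_h1 (a b c d : ℤ) (hdet : a * d - b * (r * c) = 1) (x y : ℚ) (h : ‖y‖ᵣ < ‖x‖ᵣ) :
    ‖(r : ℚ) * c * x + d * y‖ᵣ < ‖(a : ℚ) * x + b * y‖ᵣ := by
  obtain ⟨ha, -⟩ := not_dvd_of_det r hdet
  have hr1 := r_one_lt r
  have hr0 := r_pos r
  have hxpos : 0 < ‖x‖ᵣ := lt_of_le_of_lt (padicNorm.nonneg y) h
  have h1 : ‖(a : ℚ) * x + b * y‖ᵣ = ‖x‖ᵣ := by
    have : ‖(b : ℚ) * y‖ᵣ < ‖(a : ℚ) * x‖ᵣ := by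
      rw [norm_int_mul_eq r ha]
      exact lt_of_le_of_lt (norm_int_mul_le r b y) h
    rw [norm_add_eq_of_lt r this, norm_int_mul_eq r ha]
  rw [h1]
  have h2 : ‖(r : ℚ) * c * x‖ᵣ < ‖x‖ᵣ := by
    rw [mul_assoc, norm_r_mul]
    exact inv_r_mul_lt r (padicNorm.nonneg _) (norm_int_mul_le r c x) hxpos
  have h6 : ‖(d : ℚ) * y‖ᵣ < ‖x‖ᵣ := lt_of_le_of_lt (norm_int_mul_le r d y) h
  exact lt_of_le_of_lt padicNorm.nonarchimedean (max_lt h2 h6)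

/-- Elements of `H` preserve `X₀`. -/
lemma pp_h0 (a b c d : ℤ) (hdet : a * d - b * (r * c) = 1) (x y : ℚ) (h : ‖x‖ᵣ ≤ ‖y‖ᵣ)
    (hy : y ≠ 0) :
    ‖(a : ℚ) * x + b * y‖ᵣ ≤ ‖(r : ℚ) * c * x + d * y‖ᵣ ∧ (r : ℚ) * c * x + d * y ≠ 0 := by
  obtain ⟨-, hd⟩ := not_dvd_of_det r hdet
  have hr1 := r_one_lt r
  have hr0 := r_pos r
  have hypos := norm_pos_of_ne r hy
  have h2 : ‖(r : ℚ) * c * x‖ᵣ < ‖(d : ℚ) * y‖ᵣ := by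
    rw [mul_assoc, norm_r_mul, norm_int_mul_eq r hd]
    exact inv_r_mul_lt r (padicNorm.nonneg _) (le_trans (norm_int_mul_le r c x) h) hypos
  have h1 : ‖(r : ℚ) * c * x + d * y‖ᵣ = ‖y‖ᵣ := by
    rw [norm_add_eq_of_lt' r h2, norm_int_mul_eq r hd]
  refine ⟨?_, ?_⟩
  · rw [h1]
    exact norm_add_le r (le_trans (norm_int_mul_le r a x) h) (norm_int_mul_le r b y)
  · intro h0
    rw [h0, padicNorm.zero] at h1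
    linarith

end Fermat.Agent.S41.H585
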