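import Fermat.Agent.S41.H585.Defs
import Fermat.Agent.S41.H585.PingPong
import Fermat.Agent.S41.H585.AmalgPP

/-!
# S41, leaf AMALG (helper585): the two copies of `Γ₀(N)` inside `SL(2, ℚ)`
-/

set_option autoImplicit false
set_option linter.unusedSectionVars false

namespace Fermat.Agent.S41.H585

open Matrix CongruenceSubgroup
open scoped MatrixGroups

variable (N r : ℕ) [hr : Fact r.Prime]

lemma r_ne_zero : r ≠ 0 := hr.out.ne_zero

lemma rq_ne_zero : (r : ℚ) ≠ 0 := Nat.cast_ne_zero.mpr hr.out.ne_zero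

lemma conjMat_one : conjMat r (1 : SL(2, ℚ)) = 1 := by
  simp only [conjMat]
  ext i j
  fin_cases i <;> fin_cases j <;> simp

lemma conjMat_mul (g h : SL(2, ℚ)) :
    conjMat r (g * h) = conjMat r g * conjMat r h := by
  have hr' := rq_ne_zero r
  have e : ∀ i j, (g * h : SL(2, ℚ)) i j = g i 0 * h 0 j + g i 1 * h 1 j := by
    intro i j
    rw [Matrix.SpecialLinearGroup.coe_mul, Matrix.mul_apply, Fin.sum_univ_two]
  ext i j
  fin_cases i <;> fin_cases j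
  · simp only [conjMat, Matrix.mul_apply, Fin.sum_univ_two, e]
    simp
    field_simp
  · simp only [conjMat, Matrix.mul_apply, Fin.sum_univ_two, e]
    simp
    field_simp
  · simp only [conjMat, Matrix.mul_apply, Fin.sum_univ_two, e]
    simp
    ring
  · simp only [conjMat, Matrix.mul_apply, Fin.sum_univ_two, e]
    simp
    field_simp

/-- Conjugation by `δ⁻¹ = diag(1/r, 1)` on `SL(2, ℚ)`: `g ↦ !![a, b / r; r * c, d]`. -/
def conjSL (g : SL(2, ℚ)) : SL(2, ℚ) := ⟨conjMat r g, det_conjMat hr.out.ne_zero g⟩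

lemma coe_conjSL (g : SL(2, ℚ)) :
    ((conjSL r g : SL(2, ℚ)) : Matrix (Fin 2) (Fin 2) ℚ) = conjMat r g := rfl

/-- Conjugation by `δ⁻¹ = diag(1/r, 1)` on `SL(2, ℚ)`: `g ↦ !![a, b / r; r * c, d]`. -/
def conjHom : SL(2, ℚ) →* SL(2, ℚ) where
  toFun g := conjSL r g
  map_one' := by
    apply Matrix.SpecialLinearGroup.ext
    intro i j
    rw [coe_conjSL, conjMat_one]
    rfl
  map_mul' g h := by
    apply Matrix.SpecialLinearGroup.ext
    intro i j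
    rw [Matrix.SpecialLinearGroup.coe_mul, coe_conjSL, coe_conjSL, coe_conjSL, conjMat_mul]

lemma conjHom_apply (g : SL(2, ℚ)) :
    ((conjHom r g : SL(2, ℚ)) : Matrix (Fin 2) (Fin 2) ℚ) = !![g 0 0, g 0 1 / r; r * g 1 0, g 1 1] :=
  rfl

lemma conjHom_injective : Function.Injective (conjHom r) := by
  intro g h hgh
  have hr' := rq_ne_zero r
  have := congrArg (fun x : SL(2, ℚ) => (x : Matrix (Fin 2) (Fin 2) ℚ)) hgh
  simp only [conjHom_apply] at this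
  apply Subtype.ext
  ext i j
  have h00 := congrFun (congrFun this 0) 0
  have h01 := congrFun (congrFun this 0) 1
  have h10 := congrFun (congrFun this 1) 0
  have h11 := congrFun (congrFun this 1) 1
  simp at h00 h01 h10 h11
  fin_cases i <;> fin_cases j
  · exact h00
  · simpa using (div_left_inj' hr').mp h01
  · rcases h10 with h | h
    · exact h
    · exact absurd h hr.out.ne_zero
  · exact h11

/-- The second embedding `γ ↦ δ⁻¹ γ δ`. -/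
def J2 : Gamma0 N →* SL(2, ℚ) := (conjHom r).comp (J1 N)

lemma J1_injective : Function.Injective (J1 N) := by
  intro γ γ' h
  apply Subtype.ext
  apply Subtype.ext
  ext i j
  have := congrArg (fun x : SL(2, ℚ) => x i j) h
  simp only [J1_apply] at this
  exact_mod_cast this

lemma J2_injective : Function.Injective (J2 N r) :=
  (conjHom_injective r).comp (J1_injective N)

lemma J2_apply (γ : Gamma0 N) :
    ((J2 N r γ : SL(2, ℚ)) : Matrix (Fin 2) (Fin 2) ℚ) =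
      !![((γ : SL(2, ℤ)) 0 0 : ℚ), ((γ : SL(2, ℤ)) 0 1 : ℚ) / r;
         r * ((γ : SL(2, ℤ)) 1 0 : ℚ), ((γ : SL(2, ℤ)) 1 1 : ℚ)] := rfl

/-- Build an element of `Γ₀(N)` from its entries. -/
def mkSL2Z (a b c d : ℤ) (hdet : a * d - b * c = 1) : SL(2, ℤ) :=
  ⟨!![a, b; c, d], by rw [Matrix.det_fin_two_of]; exact hdet⟩

/-- Build an element of `Γ₀(N)` from its entries. -/
def mkGamma0 (a b c d : ℤ) (hdet : a * d - b * c = 1) (hc : (N : ℤ) ∣ c) : Gamma0 N :=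
  ⟨mkSL2Z a b c d hdet, by
    rw [Gamma0_mem]
    exact (ZMod.intCast_zmod_eq_zero_iff_dvd c N).mpr hc⟩

@[simp] lemma mkGamma0_00 (a b c d : ℤ) (hdet : a * d - b * c = 1) (hc : (N : ℤ) ∣ c) :
    ((mkGamma0 N a b c d hdet hc : Gamma0 N) : SL(2, ℤ)) 0 0 = a := rfl
@[simp] lemma mkGamma0_01 (a b c d : ℤ) (hdet : a * d - b * c = 1) (hc : (N : ℤ) ∣ c) :
    ((mkGamma0 N a b c d hdet hc : Gamma0 N) : SL(2, ℤ)) 0 1 = b := rfl
@[simp] lemma mkGamma0_10 (a b c d : ℤ) (hdet : a * d - b * c = 1) (hc : (N : ℤ) ∣ c) :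
    ((mkGamma0 N a b c d hdet hc : Gamma0 N) : SL(2, ℤ)) 1 0 = c := rfl
@[simp] lemma mkGamma0_11 (a b c d : ℤ) (hdet : a * d - b * c = 1) (hc : (N : ℤ) ∣ c) :
    ((mkGamma0 N a b c d hdet hc : Gamma0 N) : SL(2, ℤ)) 1 1 = d := rfl

lemma Gamma0_dvd (γ : Gamma0 N) : (N : ℤ) ∣ (γ : SL(2, ℤ)) 1 0 :=
  (ZMod.intCast_zmod_eq_zero_iff_dvd _ N).mp (Gamma0_mem.mp γ.2)

lemma Gamma0_det (γ : Gamma0 N) :
    (γ : SL(2, ℤ)) 0 0 * (γ : SL(2, ℤ)) 1 1 - (γ : SL(2, ℤ)) 0 1 * (γ : SL(2, ℤ)) 1 0 = 1 := by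
  have := (γ : SL(2, ℤ)).det_coe
  rwa [Matrix.det_fin_two] at this

/-- Equality in `SL(2, ℚ)` from equality of the four entries. -/
lemma sl2_ext {g h : SL(2, ℚ)} (h00 : g 0 0 = h 0 0) (h01 : g 0 1 = h 0 1) (h10 : g 1 0 = h 1 0)
    (h11 : g 1 1 = h 1 1) : g = h := by
  apply Subtype.ext
  ext i j
  fin_cases i <;> fin_cases j <;> assumption

lemma J2_00 (γ : Gamma0 N) : (J2 N r γ) 0 0 = ((γ : SL(2, ℤ)) 0 0 : ℚ) := rfl
lemma J2_01 (γ : Gamma0 N) : (J2 N r γ) 0 1 = ((γ : SL(2, ℤ)) 0 1 : ℚ) / r := rfl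
lemma J2_10 (γ : Gamma0 N) : (J2 N r γ) 1 0 = r * ((γ : SL(2, ℤ)) 1 0 : ℚ) := rfl
lemma J2_11 (γ : Gamma0 N) : (J2 N r γ) 1 1 = ((γ : SL(2, ℤ)) 1 1 : ℚ) := rfl

/-- The first copy `G_a = Γ₀(N)`. -/
def Ga : Subgroup SL(2, ℚ) := (J1 N).range

/-- The second copy `G_b = δ⁻¹ Γ₀(N) δ`. -/
def Gb : Subgroup SL(2, ℚ) := (J2 N r).range

variable {N r}

/-- `J1 γ ∈ G_b` iff `r ∣ c`. -/
lemma J1_mem_Gb_iff (hN : Nat.Coprime N r) (γ : Gamma0 N) :
    J1 N γ ∈ Gb N r ↔ (r : ℤ) ∣ (γ : SL(2, ℤ)) 1 0 := by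
  have hr' := rq_ne_zero r
  constructor
  · rintro ⟨γ', hγ'⟩
    have h10 := congrArg (fun x : SL(2, ℚ) => x 1 0) hγ'
    simp only [J2_10, J1_apply] at h10
    refine ⟨(γ' : SL(2, ℤ)) 1 0, ?_⟩
    exact_mod_cast h10.symm
  · rintro ⟨c', hc'⟩
    have hdet := Gamma0_det N γ
    have hNc : (N : ℤ) ∣ c' := by
      have h1 : (N : ℤ) ∣ (r : ℤ) * c' := hc' ▸ Gamma0_dvd N γ
      have hcop : IsCoprime (N : ℤ) (r : ℤ) := by
        exact_mod_cast (Nat.isCoprime_iff_coprime.mpr hN)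
      exact hcop.dvd_of_dvd_mul_left h1
    refine ⟨mkGamma0 N ((γ : SL(2, ℤ)) 0 0) (r * (γ : SL(2, ℤ)) 0 1) c' ((γ : SL(2, ℤ)) 1 1)
      (by linear_combination hdet + ((γ : SL(2, ℤ)) 0 1) * hc') hNc, ?_⟩
    apply sl2_ext
    · simp [J2_00, J1_apply]
    · simp [J2_01, J1_apply]
      field_simp
    · simp [J2_10, J1_apply, hc']
    · simp [J2_11, J1_apply]

/-- `J2 γ ∈ G_a` iff `r ∣ b`. -/
lemma J2_mem_Ga_iff (γ : Gamma0 N) :
    J2 N r γ ∈ Ga N ↔ (r : ℤ) ∣ (γ : SL(2, ℤ)) 0 1 := by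
  have hr' := rq_ne_zero r
  constructor
  · rintro ⟨γ', hγ'⟩
    have h01 := congrArg (fun x : SL(2, ℚ) => x 0 1) hγ'
    simp only [J2_01, J1_apply] at h01
    refine ⟨(γ' : SL(2, ℤ)) 0 1, ?_⟩
    have : ((γ : SL(2, ℤ)) 0 1 : ℚ) = r * ((γ' : SL(2, ℤ)) 0 1 : ℚ) := by
      rw [h01]; field_simp
    exact_mod_cast this
  · rintro ⟨b', hb'⟩
    have hdet := Gamma0_det N γ
    refine ⟨mkGamma0 N ((γ : SL(2, ℤ)) 0 0) b' (r * (γ : SL(2, ℤ)) 1 0) ((γ : SL(2, ℤ)) 1 1)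
      (by linear_combination hdet + ((γ : SL(2, ℤ)) 1 0) * hb') (Dvd.dvd.mul_left (Gamma0_dvd N γ) _), ?_⟩
    apply sl2_ext
    · simp [J2_00, J1_apply]
    · simp [J2_01, J1_apply, hb']
      field_simp
    · simp [J2_10, J1_apply]
    · simp [J2_11, J1_apply]

end Fermat.Agent.S41.H585
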