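import Fermat.Agent.S41.H585.Groups

/-!
# S41, leaf AMALG (helper585): injectivity of `Γ₀(N) *_{Γ₀(Nr)} Γ₀(N) → SL(2, ℚ)`
-/

set_option autoImplicit false
set_option linter.unusedSectionVars false

namespace Fermat.Agent.S41.H585

open Matrix CongruenceSubgroup
open scoped MatrixGroups

/-- Column vectors `ℚ²` (a private copy, to carry the action of `SL(2, ℚ)`). -/
structure Vec where
  /-- first coordinate -/
  x : ℚ
  /-- second coordinate -/
  y : ℚ

instance instSMulVec : SMul SL(2, ℚ) Vec where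
  smul g v := ⟨g 0 0 * v.x + g 0 1 * v.y, g 1 0 * v.x + g 1 1 * v.y⟩

lemma smul_x (g : SL(2, ℚ)) (v : Vec) : (g • v).x = g 0 0 * v.x + g 0 1 * v.y := rfl
lemma smul_y (g : SL(2, ℚ)) (v : Vec) : (g • v).y = g 1 0 * v.x + g 1 1 * v.y := rfl

instance instMulActionVec : MulAction SL(2, ℚ) Vec where
  one_smul v := by
    cases v
    simp [HSMul.hSMul, SMul.smul]
  mul_smul g h v := by
    have e : ∀ i j, (g * h : SL(2, ℚ)) i j = g i 0 * h 0 j + g i 1 * h 1 j := by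
      intro i j
      rw [Matrix.SpecialLinearGroup.coe_mul, Matrix.mul_apply, Fin.sum_univ_two]
    cases v with
    | mk x y =>
      show (⟨_, _⟩ : Vec) = ⟨_, _⟩
      congr 1
      · simp only [e, smul_x, smul_y]; ring
      · simp only [e, smul_x, smul_y]; ring

variable (N r : ℕ) [hr : Fact r.Prime]

/-- The two ping-pong sets: `side false = X₀ = {‖x‖ ≤ ‖y‖, y ≠ 0}`,
`side true = X₁ = {‖y‖ < ‖x‖}`. -/
def sideSet : Bool → Set Vec := fun i =>
  cond i {v | padicNorm r v.y < padicNorm r v.x} {v | padicNorm r v.x ≤ padicNorm r v.y ∧ v.y ≠ 0}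

variable {N r}

lemma mem_side_false {v : Vec} :
    v ∈ sideSet r false ↔ padicNorm r v.x ≤ padicNorm r v.y ∧ v.y ≠ 0 := Iff.rfl

lemma mem_side_true {v : Vec} :
    v ∈ sideSet r true ↔ padicNorm r v.y < padicNorm r v.x := Iff.rfl

theorem pingPongData (hN : Nat.Coprime N r) :
    PingPongData (Ga N) (Gb N r) (sideSet r) where
  disj := by
    rw [Set.disjoint_left]
    intro v h0 h1
    rw [mem_side_false] at h0
    rw [mem_side_true] at h1
    exact absurd h1 (not_lt.mpr h0.1)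
  nonempty := by
    intro i
    cases i
    · refine ⟨⟨0, 1⟩, ?_⟩
      rw [mem_side_false]
      simp [padicNorm.zero]
    · refine ⟨⟨1, 0⟩, ?_⟩
      rw [mem_side_true]
      simp [padicNorm.zero]
  pp := by
    intro i g hg hgn v hv
    cases i
    · -- `g ∈ G_a \\ G_b`
      obtain ⟨γ, rfl⟩ := hg
      have hc : ¬ (r : ℤ) ∣ (γ : SL(2, ℤ)) 1 0 := fun h => hgn ((J1_mem_Gb_iff hN γ).mpr h)
      have hv' : padicNorm r v.y < padicNorm r v.x := hv
      have := pp_a r ((γ : SL(2, ℤ)) 0 0) ((γ : SL(2, ℤ)) 0 1) ((γ : SL(2, ℤ)) 1 0)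
        ((γ : SL(2, ℤ)) 1 1) hc v.x v.y hv'
      rw [mem_side_false, smul_x, smul_y]
      simpa only [J1_apply] using this
    · -- `g ∈ G_b \\ G_a`
      obtain ⟨γ, rfl⟩ := hg
      have hb : ¬ (r : ℤ) ∣ (γ : SL(2, ℤ)) 0 1 := fun h => hgn ((J2_mem_Ga_iff γ).mpr h)
      have hv' : padicNorm r v.x ≤ padicNorm r v.y ∧ v.y ≠ 0 := hv
      have := pp_b r ((γ : SL(2, ℤ)) 0 0) ((γ : SL(2, ℤ)) 0 1) ((γ : SL(2, ℤ)) 1 0)
        ((γ : SL(2, ℤ)) 1 1) hb v.x v.y hv'.1 hv'.2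
      rw [mem_side_true, smul_x, smul_y]
      simpa only [J2_00, J2_01, J2_10, J2_11] using this
  base := by
    rintro h ⟨⟨γ, rfl⟩, hb⟩ i v hv
    obtain ⟨c', hc'⟩ := (J1_mem_Gb_iff hN γ).mp hb
    have hdet : (γ : SL(2, ℤ)) 0 0 * (γ : SL(2, ℤ)) 1 1 - (γ : SL(2, ℤ)) 0 1 * (r * c') = 1 := by
      rw [← hc']; exact Gamma0_det N γ
    have e10 : (J1 N γ) 1 0 = (r : ℚ) * c' := by
      rw [J1_apply, hc']; push_cast; ring
    cases i
    · have hv' : padicNorm r v.x ≤ padicNorm r v.y ∧ v.y ≠ 0 := hv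
      have := pp_h0 r _ _ _ _ hdet v.x v.y hv'.1 hv'.2
      rw [mem_side_false, smul_x, smul_y, e10]
      simpa only [J1_apply] using this
    · have hv' : padicNorm r v.y < padicNorm r v.x := hv
      have := pp_h1 r _ _ _ _ hdet v.x v.y hv'
      rw [mem_side_true, smul_x, smul_y, e10]
      simpa only [J1_apply] using this
  idx := by
    intro i t ht htn
    have hprime : Prime (r : ℤ) := Nat.prime_iff_prime_int.mp hr.out
    have hrN : ¬ (r : ℤ) ∣ (N : ℤ) := by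
      intro h
      have h' : r ∣ N := by exact_mod_cast h
      have := Nat.Coprime.eq_one_of_dvd hN.symm h'
      exact hr.out.one_lt.ne' this
    cases i
    · obtain ⟨τ, rfl⟩ := ht
      have hc : ¬ (r : ℤ) ∣ (τ : SL(2, ℤ)) 1 0 := fun h => htn ((J1_mem_Gb_iff hN τ).mpr h)
      -- candidates `γ_k = !![1, k; N, 1 + N k]`, `k = 0, 1`
      let γ0 : Gamma0 N := mkGamma0 N 1 0 N 1 (by ring) dvd_rfl
      let γ1 : Gamma0 N := mkGamma0 N 1 1 N (1 + N) (by ring) dvd_rfl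
      have e : ∀ (γ : Gamma0 N), ((γ * τ : Gamma0 N) : SL(2, ℤ)) 1 0 =
          (γ : SL(2, ℤ)) 1 0 * (τ : SL(2, ℤ)) 0 0 + (γ : SL(2, ℤ)) 1 1 * (τ : SL(2, ℤ)) 1 0 := by
        intro γ
        rw [Subgroup.coe_mul, Matrix.SpecialLinearGroup.coe_mul, Matrix.mul_apply,
          Fin.sum_univ_two]
      by_cases h0 : (r : ℤ) ∣ ((γ0 * τ : Gamma0 N) : SL(2, ℤ)) 1 0
      · refine ⟨J1 N γ1, ⟨γ1, rfl⟩, ?_, ?_⟩
        · show _ ∉ Gb N r
          rw [J1_mem_Gb_iff hN]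
          exact hrN
        · show _ ∉ Gb N r
          rw [← map_mul, J1_mem_Gb_iff hN]
          intro h1
          rw [e] at h0 h1
          simp only [γ0, γ1, mkGamma0_10, mkGamma0_11] at h0 h1
          have : (r : ℤ) ∣ (N : ℤ) * (τ : SL(2, ℤ)) 1 0 := by
            have := dvd_sub h1 h0
            have e2 : (N : ℤ) * (τ : SL(2, ℤ)) 0 0 + (1 + N) * (τ : SL(2, ℤ)) 1 0 -
                ((N : ℤ) * (τ : SL(2, ℤ)) 0 0 + 1 * (τ : SL(2, ℤ)) 1 0) =
                (N : ℤ) * (τ : SL(2, ℤ)) 1 0 := by ring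
            rwa [e2] at this
          rcases hprime.dvd_or_dvd this with h | h
          · exact hrN h
          · exact hc h
      · refine ⟨J1 N γ0, ⟨γ0, rfl⟩, ?_, ?_⟩
        · show _ ∉ Gb N r
          rw [J1_mem_Gb_iff hN]
          exact hrN
        · show _ ∉ Gb N r
          rw [← map_mul, J1_mem_Gb_iff hN]
          exact h0
    · obtain ⟨τ, rfl⟩ := ht
      have hb : ¬ (r : ℤ) ∣ (τ : SL(2, ℤ)) 0 1 := fun h => htn ((J2_mem_Ga_iff τ).mpr h)
      -- candidates `γ_k = !![1 + N k, 1; N k, 1]`, `k = 0, 1`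
      let γ0 : Gamma0 N := mkGamma0 N 1 1 0 1 (by ring) (dvd_zero _)
      let γ1 : Gamma0 N := mkGamma0 N (1 + N) 1 N 1 (by ring) dvd_rfl
      have e : ∀ (γ : Gamma0 N), ((γ * τ : Gamma0 N) : SL(2, ℤ)) 0 1 =
          (γ : SL(2, ℤ)) 0 0 * (τ : SL(2, ℤ)) 0 1 + (γ : SL(2, ℤ)) 0 1 * (τ : SL(2, ℤ)) 1 1 := by
        intro γ
        rw [Subgroup.coe_mul, Matrix.SpecialLinearGroup.coe_mul, Matrix.mul_apply,
          Fin.sum_univ_two]
      have h1r : ¬ (r : ℤ) ∣ (1 : ℤ) := hprime.not_dvd_one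
      by_cases h0 : (r : ℤ) ∣ ((γ0 * τ : Gamma0 N) : SL(2, ℤ)) 0 1
      · refine ⟨J2 N r γ1, ⟨γ1, rfl⟩, ?_, ?_⟩
        · show _ ∉ Ga N
          rw [J2_mem_Ga_iff]
          exact h1r
        · show _ ∉ Ga N
          rw [← map_mul, J2_mem_Ga_iff]
          intro h1
          rw [e] at h0 h1
          simp only [γ0, γ1, mkGamma0_00, mkGamma0_01] at h0 h1
          have : (r : ℤ) ∣ (N : ℤ) * (τ : SL(2, ℤ)) 0 1 := by
            have := dvd_sub h1 h0
            have e2 : (1 + (N : ℤ)) * (τ : SL(2, ℤ)) 0 1 + 1 * (τ : SL(2, ℤ)) 1 1 -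
                (1 * (τ : SL(2, ℤ)) 0 1 + 1 * (τ : SL(2, ℤ)) 1 1) =
                (N : ℤ) * (τ : SL(2, ℤ)) 0 1 := by ring
            rwa [e2] at this
          rcases hprime.dvd_or_dvd this with h | h
          · exact hrN h
          · exact hb h
      · refine ⟨J2 N r γ0, ⟨γ0, rfl⟩, ?_, ?_⟩
        · show _ ∉ Ga N
          rw [J2_mem_Ga_iff]
          exact h1r
        · show _ ∉ Ga N
          rw [← map_mul, J2_mem_Ga_iff]
          exact h0

/-- **AMALG, injectivity**: the amalgam `Γ₀(N) *_{Γ₀(Nr)} δ⁻¹Γ₀(N)δ` embeds in `SL(2, ℚ)`. -/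
theorem amalgMap_injective_Gamma0 (hN : Nat.Coprime N r) :
    Function.Injective (amalgMap (Ga N) (Gb N r)) :=
  amalgMap_injective (pingPongData hN)

end Fermat.Agent.S41.H585
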