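import Mathlib

/-!
# S41 / PD helper (helper585): coboundaries of a permutation with values in an abelian group

`exists_cobd_of_cycle_sum_zero`: for a permutation `σ` of a finite type `X` and `b : X → A`
(`A` any abelian group) whose sums along all closed `σ`-paths vanish, there is `h : X → A` with
`b x = h (σ x) - h x`.  (The field-valued version by dimension count is
`Fermat.Agent.S21.H585.exists_cobd_of_osum_eq_zero`.)
-/

set_option autoImplicit false

namespace Fermat.Agent.S41.H585

open Equiv

section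

variable {X : Type*} {A : Type*} [AddCommGroup A]

/-- Partial sums of `b` along the `σ`-path starting at `r`. -/
def pathSum (σ : Perm X) (b : X → A) (r : X) (k : ℕ) : A :=
  ∑ j ∈ Finset.range k, b ((σ ^ j) r)

@[simp] lemma pathSum_zero (σ : Perm X) (b : X → A) (r : X) : pathSum σ b r 0 = 0 := by
  simp [pathSum]

lemma pathSum_succ (σ : Perm X) (b : X → A) (r : X) (k : ℕ) :
    pathSum σ b r (k + 1) = pathSum σ b r k + b ((σ ^ k) r) := by
  simp [pathSum, Finset.sum_range_succ]

lemma pathSum_add (σ : Perm X) (b : X → A) (r : X) (k n : ℕ) :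
    pathSum σ b r (k + n) = pathSum σ b r k + pathSum σ b ((σ ^ k) r) n := by
  unfold pathSum
  rw [Finset.sum_range_add]
  congr 1
  refine Finset.sum_congr rfl fun j _ => ?_
  rw [add_comm k j, pow_add, Perm.mul_apply]

lemma pathSum_eq_of_le (σ : Perm X) (b : X → A)
    (hb : ∀ x (n : ℕ), (σ ^ n) x = x → pathSum σ b x n = 0) (r : X) {k k' : ℕ} (hk : k ≤ k')
    (h : (σ ^ k) r = (σ ^ k') r) : pathSum σ b r k = pathSum σ b r k' := by
  obtain ⟨n, rfl⟩ := Nat.exists_eq_add_of_le hk
  rw [pathSum_add, hb ((σ ^ k) r) n, add_zero]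
  rw [← Perm.mul_apply, ← pow_add, add_comm n k]
  exact h.symm

lemma pathSum_eq (σ : Perm X) (b : X → A)
    (hb : ∀ x (n : ℕ), (σ ^ n) x = x → pathSum σ b x n = 0) (r : X) {k k' : ℕ}
    (h : (σ ^ k) r = (σ ^ k') r) : pathSum σ b r k = pathSum σ b r k' := by
  rcases le_total k k' with hk | hk
  · exact pathSum_eq_of_le σ b hb r hk h
  · exact (pathSum_eq_of_le σ b hb r hk h.symm).symm

/-- **Cycle sums zero ⇒ coboundary** (values in an arbitrary abelian group). -/
theorem exists_cobd_of_cycle_sum_zero [Finite X] (σ : Perm X) (b : X → A)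
    (hb : ∀ x (n : ℕ), (σ ^ n) x = x → ∑ j ∈ Finset.range n, b ((σ ^ j) x) = 0) :
    ∃ h : X → A, ∀ x, b x = h (σ x) - h x := by
  classical
  let s : Setoid X := Perm.SameCycle.setoid σ
  let rep : X → X := fun x => Quotient.out (Quotient.mk s x)
  have hrep : ∀ x, Perm.SameCycle σ (rep x) x := fun x => Quotient.mk_out (s := s) x
  have hk : ∀ x, ∃ k : ℕ, (σ ^ k) (rep x) = x := fun x => (hrep x).exists_nat_pow_eq
  choose k hkx using hk
  have hrepσ : ∀ x, rep (σ x) = rep x := by
    intro x
    have : Quotient.mk s (σ x) = Quotient.mk s x :=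
      Quotient.sound (Perm.sameCycle_apply_left.mpr (Perm.SameCycle.refl σ x))
    show Quotient.out (Quotient.mk s (σ x)) = Quotient.out (Quotient.mk s x)
    rw [this]
  refine ⟨fun x => pathSum σ b (rep x) (k x), fun x => ?_⟩
  have h1 : (σ ^ (k (σ x))) (rep x) = (σ ^ (k x + 1)) (rep x) := by
    have := hkx (σ x)
    rw [hrepσ] at this
    rw [this, pow_succ', Perm.mul_apply, hkx]
  have h2 : pathSum σ b (rep (σ x)) (k (σ x)) = pathSum σ b (rep x) (k x + 1) := by
    rw [hrepσ]
    exact pathSum_eq σ b hb (rep x) h1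
  show b x = pathSum σ b (rep (σ x)) (k (σ x)) - pathSum σ b (rep x) (k x)
  rw [h2, pathSum_succ, hkx]
  abel

end

end Fermat.Agent.S41.H585
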