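import Fermat.Agent.S41.Spec.PD
import Fermat.Agent.S21.H585.LowerBound
import Fermat.Agent.S21.H585.Parabolic
import Fermat.Agent.S41.H585.PDCobd

/-!
# S41 / PD, leaf DICT-b (helper585): Manin symbols ↔ classes, part b

* `maninRepRealize   : Spec.ManinRepRealizeStatement`   (D3)
* `maninRepTorsion   : Spec.TorsionClassStatement → Spec.ManinRepTorsionStatement`   (D3')
* `maninRepParabolic : Spec.ManinRepParabolicStatement` (D4)

plus reusable facts on Manin cocycles (`IsManinCocycle.*`).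
-/

set_option autoImplicit false

namespace Fermat.Agent.S41.H585

open CongruenceSubgroup Matrix.SpecialLinearGroup ModularCurve.Period ModularGroup
open Fermat.Agent.S21.H585 Fermat.Agent.S41.Spec
open scoped MatrixGroups

universe u

section Basic

variable {Γ : Subgroup SL(2, ℤ)} {A : Type*} [AddCommGroup A]
  {f : SL(2, ℤ) → SL(2, ℤ) ⧸ Γ → A} {m : SL(2, ℤ) ⧸ Γ → A}

lemma mc_isCocycle (hf : IsManinCocycle Γ f m) : IsCocycle f := hf.1

lemma mc_map_S (hf : IsManinCocycle Γ f m) (x : SL(2, ℤ) ⧸ Γ) : f S x = 0 := hf.2.1 x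

lemma mc_map_ST (hf : IsManinCocycle Γ f m) (x : SL(2, ℤ) ⧸ Γ) :
    f (S * T) x = m ((S * T) • x) - m x := hf.2.2 x

lemma mc_map_S_inv (hf : IsManinCocycle Γ f m) (x : SL(2, ℤ) ⧸ Γ) : f S⁻¹ x = 0 := by
  rw [(mc_isCocycle hf).map_inv', (mc_map_S hf), neg_zero]

lemma mc_map_T (hf : IsManinCocycle Γ f m) (x : SL(2, ℤ) ⧸ Γ) :
    f T x = m ((S * T) • x) - m x := by
  have h : (T : SL(2, ℤ)) = S⁻¹ * (S * T) := by rw [inv_mul_cancel_left]
  have h2 := (mc_isCocycle hf) S⁻¹ (S * T) x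
  rw [← h, (mc_map_S_inv hf), add_zero, (mc_map_ST hf)] at h2
  exact h2

lemma mc_map_neg_one (hf : IsManinCocycle Γ f m) (x : SL(2, ℤ) ⧸ Γ) :
    f (-1) x = 0 := by
  rw [← S_mul_S_eq_neg_one, (mc_isCocycle hf), (mc_map_S hf), (mc_map_S hf), add_zero]

lemma mc_map_neg (hf : IsManinCocycle Γ f m) (g : SL(2, ℤ)) (x : SL(2, ℤ) ⧸ Γ) :
    f (-g) x = f g x := by
  have h : (-g : SL(2, ℤ)) = (-1) * g := by simp
  rw [h, (mc_isCocycle hf), (mc_map_neg_one hf), add_zero]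

lemma mc_map_ST_zpow (hf : IsManinCocycle Γ f m) (k : ℤ) (x : SL(2, ℤ) ⧸ Γ) :
    f ((S * T) ^ k) x = m ((S * T) ^ k • x) - m x :=
  (mc_isCocycle hf).zpow_of_cobd (S * T) m (mc_map_ST hf) k x

lemma mc_map_S_zpow (hf : IsManinCocycle Γ f m) (k : ℤ) (x : SL(2, ℤ) ⧸ Γ) :
    f (S ^ k) x = 0 := by
  have := (mc_isCocycle hf).zpow_of_cobd S (0 : SL(2, ℤ) ⧸ Γ → A) (fun y => by simp [(mc_map_S hf)]) k x
  simpa using this

/-- The value of the attached class on a conjugate `g t g⁻¹ ∈ Γ`. -/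
lemma mc_conj_basePt (hf : IsManinCocycle Γ f m) (g t : SL(2, ℤ))
    (hmem : g * t * g⁻¹ ∈ Γ) :
    f (g * t * g⁻¹) (basePt Γ) = f t (g⁻¹ • basePt Γ) :=
  (mc_isCocycle hf).conj_apply g t (smul_basePt_of_mem Γ hmem)

/-- The value of the attached class on a conjugate `g⁻¹ t g ∈ Γ`. -/
lemma mc_conj_basePt' (hf : IsManinCocycle Γ f m) (g t : SL(2, ℤ))
    (hmem : g⁻¹ * t * g ∈ Γ) :
    f (g⁻¹ * t * g) (basePt Γ) = f t (g • basePt Γ) := by
  have h := mc_conj_basePt hf g⁻¹ t (by rwa [inv_inv])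
  rwa [inv_inv] at h

lemma smul_inv_basePt_fixed {g t : SL(2, ℤ)} (hmem : g * t * g⁻¹ ∈ Γ) :
    t • g⁻¹ • basePt Γ = g⁻¹ • basePt Γ := by
  calc t • g⁻¹ • basePt Γ = g⁻¹ • (g * t * g⁻¹) • basePt Γ := by
        simp only [mul_smul, inv_smul_smul]
    _ = g⁻¹ • basePt Γ := by rw [smul_basePt_of_mem Γ hmem]

end Basic

/-! ## D3 -/

/-- (D3) every Manin symbol represents a class. -/
theorem maninRepRealize : ManinRepRealizeStatement.{u} := by
  intro Γ _ hneg A _ m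
  have hn : ∀ x : SL(2, ℤ) ⧸ Γ, (-1 : SL(2, ℤ)) • x = x := neg_one_smul_quot hneg
  obtain ⟨f, hf, hS, hU⟩ := exists_cocycle (X := SL(2, ℤ) ⧸ Γ) hn (0 : SL(2, ℤ) ⧸ Γ → A)
    (fun x => m ((S * T) • x) - m x) (fun x => by simp) (fun x => by
      have h1 : (S * T) • (S * T) • (S * T) • x = x := by
        rw [smul_smul, smul_smul, ST_cube_eq_neg_one, hn]
      show m ((S * T) • x) - m x + (m ((S * T) • (S * T) • x) - m ((S * T) • x)) +
        (m ((S * T) • (S * T) • (S * T) • x) - m ((S * T) • (S * T) • x)) = 0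
      rw [h1]
      abel)
  refine ⟨homOfCocycle Γ f hf, f, ⟨hf, fun x => by rw [hS]; rfl, fun x => by rw [hU]⟩, fun γ => ?_⟩
  rfl

/-! ## D3' -/

/-- (D3') represented classes are torsion-trivial. -/
theorem maninRepTorsion (tors : TorsionClassStatement) : ManinRepTorsionStatement.{u} := by
  intro Γ _ hneg A _ φ m ⟨f, hf, hφ⟩ γ hγ
  have hn : ∀ x : SL(2, ℤ) ⧸ Γ, (-1 : SL(2, ℤ)) • x = x := neg_one_smul_quot hneg
  have hγ' : IsOfFinOrder (γ : SL(2, ℤ)) := by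
    obtain ⟨n, hn0, hn1⟩ := isOfFinOrder_iff_pow_eq_one.mp hγ
    exact isOfFinOrder_iff_pow_eq_one.mpr ⟨n, hn0, by rw [← Subgroup.coe_pow, hn1]; rfl⟩
  obtain ⟨h, hh⟩ := tors (γ : SL(2, ℤ)) hγ'
  rw [hφ γ]
  -- `γ = h⁻¹ t h`
  have key : ∀ t : SL(2, ℤ), h * (γ : SL(2, ℤ)) * h⁻¹ = t →
      (∀ y : SL(2, ℤ) ⧸ Γ, t • y = y → f t y = 0) →
      f (γ : SL(2, ℤ)) ((1 : SL(2, ℤ)) : SL(2, ℤ) ⧸ Γ) = 0 := by
    intro t ht hty
    have e : (γ : SL(2, ℤ)) = h⁻¹ * t * h⁻¹⁻¹ := by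
      rw [← ht, inv_inv]; group
    have hmem : h⁻¹ * t * h⁻¹⁻¹ ∈ Γ := by rw [← e]; exact γ.2
    have h1 := (mc_conj_basePt hf) h⁻¹ t hmem
    have h2 := smul_inv_basePt_fixed hmem
    show f (γ : SL(2, ℤ)) (basePt Γ) = 0
    rw [e, h1]
    exact hty _ h2
  have hU1 : ∀ y : SL(2, ℤ) ⧸ Γ, (S * T) • y = y → f (S * T) y = 0 := by
    intro y hy
    rw [(mc_map_ST hf), hy, sub_self]
  have hU2 : ∀ y : SL(2, ℤ) ⧸ Γ, ((S * T) ^ 2) • y = y → f ((S * T) ^ 2) y = 0 := by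
    intro y hy
    have := (mc_map_ST_zpow hf) 2 y
    rw [zpow_ofNat] at this
    rw [this, hy, sub_self]
  have hnegfix : ∀ (t : SL(2, ℤ)) (y : SL(2, ℤ) ⧸ Γ), (-t) • y = y → t • y = y := by
    intro t y hy
    have h : (-t : SL(2, ℤ)) = (-1) * t := by simp
    rw [h, mul_smul, hn] at hy
    exact hy
  rcases hh with hh | hh | hh | hh | hh | hh | hh | hh
  · exact key 1 hh (fun y _ => (mc_isCocycle hf).map_one y)
  · exact key (-1) hh (fun y _ => (mc_map_neg_one hf) y)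
  · exact key S hh (fun y _ => (mc_map_S hf) y)
  · exact key (-S) hh (fun y _ => by rw [(mc_map_neg hf), (mc_map_S hf)])
  · exact key (S * T) hh hU1
  · exact key (-(S * T)) hh (fun y hy => by rw [(mc_map_neg hf)]; exact hU1 y (hnegfix _ y hy))
  · exact key ((S * T) ^ 2) hh hU2
  · exact key (-(S * T) ^ 2) hh (fun y hy => by rw [(mc_map_neg hf)]; exact hU2 y (hnegfix _ y hy))

/-! ## D4 -/

section D4

variable {Γ : Subgroup SL(2, ℤ)} {A : Type*} [AddCommGroup A]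
  {f : SL(2, ℤ) → SL(2, ℤ) ⧸ Γ → A} {m : SL(2, ℤ) ⧸ Γ → A}

lemma toPerm_pow_apply (g : SL(2, ℤ)) (n : ℕ) (x : SL(2, ℤ) ⧸ Γ) :
    ((MulAction.toPerm g : Equiv.Perm (SL(2, ℤ) ⧸ Γ)) ^ n) x = g ^ n • x := by
  induction n generalizing x with
  | zero => simp
  | succ n ih => rw [pow_succ, Equiv.Perm.mul_apply, ih, MulAction.toPerm_apply, pow_succ, mul_smul]

/-- Sums of a cocycle along a path. -/
lemma cocycle_pow_apply_eq_sum {X : Type*} [MulAction SL(2, ℤ) X] {f : SL(2, ℤ) → X → A}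
    (hf : IsCocycle f) (g : SL(2, ℤ)) (n : ℕ) (x : X) :
    f (g ^ n) x = ∑ j ∈ Finset.range n, f g (g ^ j • x) := by
  induction n with
  | zero => simp [hf.map_one]
  | succ n ih => rw [pow_succ', hf, ih, Finset.sum_range_succ]

/-- parabolic data make the class parabolic -/
lemma parabolic_of_parData (hneg : (-1 : SL(2, ℤ)) ∈ Γ) (hf : IsManinCocycle Γ f m)
    (e : SL(2, ℤ) ⧸ Γ → A) (he : IsParData Γ m e) (γ : SL(2, ℤ)) (hγ : γ ∈ Γ)
    (htr : (γ : Matrix (Fin 2) (Fin 2) ℤ).trace ^ 2 = 4) : f γ (basePt Γ) = 0 := by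
  have hT : ∀ x, f T x = e (T • x) - e x := fun x => by rw [(mc_map_T hf), he x]
  obtain ⟨g, k, hg⟩ := exists_conj_T_zpow γ htr
  have hmem : g * T ^ k * g⁻¹ ∈ Γ := by
    rcases hg with hg | hg
    · rw [← hg]; exact hγ
    · have h1 : g * T ^ k * g⁻¹ = -γ := by rw [hg, neg_neg]
      rw [h1]
      have h2 : (-γ : SL(2, ℤ)) = (-1) * γ := by simp
      rw [h2]
      exact Γ.mul_mem hneg hγ
  have h0 : f (g * T ^ k * g⁻¹) (basePt Γ) = 0 := by
    rw [(mc_conj_basePt hf) g (T ^ k) hmem, (mc_isCocycle hf).zpow_of_cobd T e hT k,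
      smul_inv_basePt_fixed hmem, sub_self]
  rcases hg with hg | hg
  · rw [hg]; exact h0
  · rw [hg, (mc_map_neg hf)]; exact h0

end D4

/-- (D4) `φ` is parabolic iff `m` admits parabolic data. -/
theorem maninRepParabolic : ManinRepParabolicStatement.{u} := by
  intro Γ _ hneg A _ φ m ⟨f, hf, hφ⟩
  have : Finite (SL(2, ℤ) ⧸ Γ) := Subgroup.finite_quotient_of_finiteIndex
  constructor
  · intro hpar
    -- cycle sums of `f T` vanish
    have hb : ∀ (x : SL(2, ℤ) ⧸ Γ) (n : ℕ),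
        ((MulAction.toPerm T : Equiv.Perm (SL(2, ℤ) ⧸ Γ)) ^ n) x = x →
        ∑ j ∈ Finset.range n,
          f T (((MulAction.toPerm T : Equiv.Perm (SL(2, ℤ) ⧸ Γ)) ^ j) x) = 0 := by
      intro x n hx
      rw [toPerm_pow_apply] at hx
      have h1 : ∑ j ∈ Finset.range n,
          f T (((MulAction.toPerm T : Equiv.Perm (SL(2, ℤ) ⧸ Γ)) ^ j) x) = f (T ^ n) x := by
        rw [cocycle_pow_apply_eq_sum (mc_isCocycle hf)]
        exact Finset.sum_congr rfl fun j _ => by rw [toPerm_pow_apply]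
      rw [h1]
      -- `x = g • x₀`, `g⁻¹ T^n g ∈ Γ` has trace `2`
      obtain ⟨g, rfl⟩ : ∃ g : SL(2, ℤ), g • basePt Γ = x := ⟨Quotient.out x, out_smul_basePt Γ x⟩
      have hmem : g⁻¹ * T ^ n * g ∈ Γ := by
        have h2 : (T ^ n * g) • basePt Γ = g • basePt Γ := by rw [mul_smul]; exact hx
        rw [smul_basePt_eq, smul_basePt_eq] at h2
        have h3 := QuotientGroup.eq.mp h2.symm
        rwa [← mul_assoc] at h3
      rw [← mc_conj_basePt' hf g (T ^ n) hmem]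
      have htr : (((⟨g⁻¹ * T ^ n * g, hmem⟩ : Γ) : SL(2, ℤ)) :
          Matrix (Fin 2) (Fin 2) ℤ).trace ^ 2 = 4 := by
        show ((g⁻¹ * T ^ n * g : SL(2, ℤ)) : Matrix (Fin 2) (Fin 2) ℤ).trace ^ 2 = 4
        rw [Matrix.SpecialLinearGroup.coe_mul, Matrix.trace_mul_comm,
          ← Matrix.SpecialLinearGroup.coe_mul, mul_inv_cancel_left]
        have : ((T ^ n : SL(2, ℤ)) : Matrix (Fin 2) (Fin 2) ℤ) = !![1, (n : ℤ); 0, 1] := by
          rw [← zpow_natCast, coe_T_zpow]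
        rw [this, Matrix.trace_fin_two_of]
        norm_num
      have h5 := hpar ⟨g⁻¹ * T ^ n * g, hmem⟩ htr
      rw [hφ] at h5
      exact h5
    obtain ⟨e, he⟩ := exists_cobd_of_cycle_sum_zero (MulAction.toPerm T) (f T) hb
    refine ⟨e, fun x => ?_⟩
    rw [← (mc_map_T hf), he x, MulAction.toPerm_apply]
  · rintro ⟨e, he⟩ γ hγ
    rw [hφ γ]
    exact parabolic_of_parData hneg hf e he γ γ.2 hγ

end Fermat.Agent.S41.H585
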